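/-
S56 / W5 (Taylor-Wiles primes): the hypotheses of S56 on `ρbar`, bundled.  Owner: helper59.
`N = ad0Dual ρbar = (ad⁰ρbar)^* ⊗ det ρbar` (see `S56/Selmer/Defs.lean`).
-/
import Fermat.Agent.S56.Walls
import Fermat.Prelude.Def_GaloisRep_LocalConditions

set_option autoImplicit false

namespace Fermat.Agent.S56.TW

open Fermat.Agent.F4 Polynomial

/-- The hypotheses of S56 on the residual representation. -/
structure Hyp {k : Type} [Field k] (p : ℕ) (ρbar : ResidualGaloisRep k) : Prop where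
  finite : Finite k
  prime : p.Prime
  odd : p ≠ 2
  char : (p : k) = 0
  habs : ρbar.IsAbsolutelyIrreducible
  hdet : (GaloisRepAdic.ofResidualGaloisRep ρbar).DetIsCyclotomic p
  hsplit : ∀ σ : GQ, ∃ α β : k, LinearMap.charpoly (ρbar.ρ σ) = (X - C α) * (X - C β)
  hTW : ∀ (K : Type) [Field K] [Algebra k K] (G : Subgroup GQ), G.index = 2 →
    ∀ V : Submodule K (ρbar.baseChange K).V,
      (∀ σ ∈ G, ∀ x ∈ V, (ρbar.baseChange K).ρ σ x ∈ V) → V = ⊥ ∨ V = ⊤

/-- `σ` fixes the `m`-th roots of unity. -/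
def FixesRoots (m : ℕ) (σ : GQ) : Prop := ∀ t : AlgebraicClosure ℚ, t ^ m = 1 → σ t = t

/-- `ρbar σ` has two distinct eigenvalues in `k`. -/
def IsRegular {k : Type} [Field k] (ρbar : ResidualGaloisRep k) (σ : GQ) : Prop :=
  ∃ α β : k, α ≠ β ∧ LinearMap.charpoly (ρbar.ρ σ) = (X - C α) * (X - C β)

/-- `c` is a 1-cocycle with values in `N` (explicit form). -/
def IsCoc {k : Type} [Field k] (N : Rep k GQ) (c : GQ → N) : Prop :=
  ∀ g h : GQ, c (g * h) = N.ρ g (c h) + c g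

/-- `c σ ∈ (σ - 1) N`. -/
def InRange {k : Type} [Field k] (N : Rep k GQ) (c : GQ → N) (σ : GQ) : Prop :=
  ∃ x : N, c σ = N.ρ σ x - x

end Fermat.Agent.S56.TW
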