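/-
S56 / W5 leaf L2 (cyclotomic and level bookkeeping).  Owner: helper73.
Tools: `Fermat/Agent/Lib/Cyclo/ModChar.lean` (`modChar_frobenius`), `Fermat/Agent/F4/Cf/CharGQ.lean`
(`modChar_surjective_GQ`), `Fermat/Agent/F4/BR/LevelsBridge.lean` (`br_exists_stable`),
`ResidualGaloisRep.factorsThroughFiniteLevel`.
NOTE: `fixesRoots_commutator` needs `m ≠ 0` (`FixesRoots 0 σ` means `σ = 1`).
-/
import Fermat.Agent.S56.TW.Hyp
import Fermat.Agent.F4.Cf.CharGQ
import Fermat.Agent.F4.BR.LevelsBridge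

set_option autoImplicit false

namespace Fermat.Agent.S56.TW

open Fermat.Agent.F4 Polynomial

variable {k : Type} [Field k]

/-- An element with trivial mod `m` cyclotomic character fixes the `m`-th roots of unity. -/
theorem cyc_fixesRoots_of_modChar (m : ℕ) [NeZero m] (σ : GQ) (h : Cyclo.modChar m σ = 1) :
    FixesRoots m σ := by
  intro t ht
  have h1 := Cyclo.modChar_spec m σ ht
  rw [h] at h1
  rcases Nat.lt_or_ge 1 m with hn | hn
  · have : Fact (1 < m) := ⟨hn⟩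
    rw [Units.val_one, ZMod.val_one, pow_one] at h1
    exact h1
  · have hn1 : m = 1 := le_antisymm hn (Nat.pos_of_ne_zero (NeZero.ne m))
    subst hn1
    have : t = 1 := by simpa using ht
    rw [this, map_one]

/-- An element fixing the `m`-th roots of unity has trivial mod `m` cyclotomic character. -/
theorem cyc_modChar_of_fixesRoots (m : ℕ) [NeZero m] (σ : GQ) (h : FixesRoots m σ) :
    Cyclo.modChar m σ = 1 :=
  Cyclo.modChar_eq_one_of_fix m σ h

/-- A Frobenius element at `q ≠ p` which fixes the `p^(n+1)`-th roots of unity: `q ≡ 1`. -/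
theorem pow_dvd_sub_one_of_frobenius (p n q : ℕ) (hp : p.Prime) (hq : q.Prime) (hqp : q ≠ p)
    (P : ValuationSubring (AlgebraicClosure ℚ)) (hP : P.LiesOverPrime q) (φ : GQ)
    (hφ : P.IsFrobeniusAt φ q) (hfix : FixesRoots (p ^ (n + 1)) φ) : p ^ (n + 1) ∣ q - 1 := by
  have : NeZero (p ^ (n + 1)) := ⟨pow_ne_zero _ hp.ne_zero⟩
  have hndvd : ¬ q ∣ p ^ (n + 1) := by
    intro h
    have h1 := hq.dvd_of_dvd_pow h
    exact hqp ((Nat.prime_dvd_prime_iff_eq hq hp).1 h1)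
  have h1 := Cyclo.modChar_frobenius (p ^ (n + 1)) hq hndvd P hP φ hφ
  rw [cyc_modChar_of_fixesRoots (p ^ (n + 1)) φ hfix, Units.val_one] at h1
  have h2 : ((q - 1 : ℕ) : ZMod (p ^ (n + 1))) = 0 := by
    rw [Nat.cast_sub hq.one_lt.le, Nat.cast_one, ← h1, sub_self]
  exact (ZMod.natCast_eq_zero_iff _ _).1 h2

/-- The roots of unity of order `m` are fixed by a level. -/
theorem exists_level_fixesRoots (m : ℕ) (hm : m ≠ 0) :
    ∃ U ∈ levelsAll.sets, ∀ σ ∈ U, FixesRoots m σ := by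
  have : NeZero m := ⟨hm⟩
  refine ⟨(Cyclo.cycloField m).fixingSubgroup, Loc.cycloField_mem_levelsAll m, ?_⟩
  intro σ hσ t ht
  exact (IntermediateField.mem_fixingSubgroup_iff _ _).1 hσ t
    (Cyclo.mem_cycloField_of_pow_eq_one m ht)

/-- `ρbar` is trivial on a level. -/
theorem exists_level_ker (ρbar : ResidualGaloisRep k) :
    ∃ U ∈ levelsAll.sets, ∀ σ ∈ U, ρbar.ρ σ = 1 := by
  obtain ⟨L, hL, h1⟩ := ρbar.factorsThroughFiniteLevel
  obtain ⟨F', hle, hfin, hst, -⟩ := br_exists_stable L hL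
  refine ⟨F'.fixingSubgroup, ⟨F', hfin, hst, rfl⟩, ?_⟩
  intro σ hσ
  refine h1 σ fun x hx => ?_
  exact (IntermediateField.mem_fixingSubgroup_iff _ _).1 hσ x (hle hx)

/-- `det ρbar σ = a` if `σ` raises the `p`-th roots of unity to the power `a`. -/
theorem cyc_det_eq_natCast {p : ℕ} {ρbar : ResidualGaloisRep k} (H : Hyp p ρbar) (σ : GQ) (a : ℕ)
    (hσ : ∀ μ : AlgebraicClosure ℚ, μ ^ p = 1 → σ μ = μ ^ a) :
    LinearMap.det (ρbar.ρ σ) = (a : k) := by
  have h := H.hdet.2 1 σ a (by simpa using hσ)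
  have h0 : ((p ^ 1 : ℕ) : k) = 0 := by rw [pow_one]; exact H.char
  rw [h0, Ideal.span_singleton_eq_bot.2 rfl, Ideal.mem_bot, sub_eq_zero] at h
  exact h

/-- `det ρbar` is the mod `p` cyclotomic character: it is trivial on the elements fixing `μ_p`. -/
theorem det_eq_one_of_fixesRoots {p : ℕ} {ρbar : ResidualGaloisRep k} (H : Hyp p ρbar) (σ : GQ)
    (hσ : FixesRoots p σ) : LinearMap.det (ρbar.ρ σ) = 1 := by
  have h := cyc_det_eq_natCast H σ 1 (fun μ hμ => by rw [hσ μ hμ, pow_one])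
  rw [h, Nat.cast_one]

/-- `det ρbar` is the mod `p` cyclotomic character: it is onto `𝔽_pˣ`, which is cyclic of order
`p - 1 ≥ 4` if `p ≥ 5`. -/
theorem exists_det_sq_ne_one {p : ℕ} {ρbar : ResidualGaloisRep k} (H : Hyp p ρbar) (hp3 : p ≠ 3) :
    ∃ σ : GQ, LinearMap.det (ρbar.ρ σ) ^ 2 ≠ 1 := by
  have hp := H.prime
  have : Fact p.Prime := ⟨hp⟩
  have : NeZero p := ⟨hp.ne_zero⟩
  have hp2 : 2 < p := lt_of_le_of_ne hp.two_le (Ne.symm H.odd)
  have hcop : Nat.Coprime 2 p := by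
    rw [Nat.coprime_comm]
    exact (Nat.coprime_primes hp Nat.prime_two).2 H.odd
  obtain ⟨σ, hσ⟩ := F4Cf.modChar_surjective_GQ p (ZMod.unitOfCoprime 2 hcop)
  refine ⟨σ, ?_⟩
  have hpow : ∀ μ : AlgebraicClosure ℚ, μ ^ p = 1 → σ μ = μ ^ 2 := by
    intro μ hμ
    have h1 := Cyclo.modChar_spec p σ hμ
    rw [hσ, ZMod.coe_unitOfCoprime] at h1
    have h2 : ((2 : ℕ) : ZMod p).val = 2 := by
      rw [ZMod.val_natCast]
      exact Nat.mod_eq_of_lt hp2
    rw [h2] at h1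
    exact h1
  rw [cyc_det_eq_natCast H σ 2 hpow]
  have : CharP k p := (CharP.charP_iff_prime_eq_zero hp).2 H.char
  intro h
  have h3 : ((3 : ℕ) : k) = 0 := by
    have : ((2 : ℕ) : k) ^ 2 - 1 = ((3 : ℕ) : k) := by push_cast; ring
    rw [← this, h, sub_self]
  have h4 : p ∣ 3 := (CharP.cast_eq_zero_iff k p 3).1 h3
  exact hp3 ((Nat.prime_dvd_prime_iff_eq hp Nat.prime_three).1 h4)

/-- The elements fixing the `p^(n+1)`-th roots of unity form a normal subgroup with cyclic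
quotient (`p` odd); stated without quotients: there is `γ` such that every `σ` is `γ ^ i` times
an element fixing the roots of unity. -/
theorem exists_cyclic_generator (p n : ℕ) (hp : p.Prime) (hp2 : p ≠ 2) :
    ∃ γ : GQ, ∀ σ : GQ, ∃ (i : ℕ) (τ : GQ), FixesRoots (p ^ (n + 1)) τ ∧ σ = γ ^ i * τ := by
  have : NeZero (p ^ (n + 1)) := ⟨pow_ne_zero _ hp.ne_zero⟩
  have : IsCyclic (ZMod (p ^ (n + 1)))ˣ := ZMod.isCyclic_units_of_prime_pow p hp hp2 (n + 1)
  obtain ⟨g, hg⟩ := IsCyclic.exists_generator (α := (ZMod (p ^ (n + 1)))ˣ)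
  obtain ⟨γ, hγ⟩ := F4Cf.modChar_surjective_GQ (p ^ (n + 1)) g
  refine ⟨γ, fun σ => ?_⟩
  have hmem := hg (Cyclo.modChar (p ^ (n + 1)) σ)
  rw [← mem_powers_iff_mem_zpowers] at hmem
  obtain ⟨i, hi⟩ := hmem
  refine ⟨i, (γ ^ i)⁻¹ * σ, ?_, ?_⟩
  · apply cyc_fixesRoots_of_modChar
    rw [map_mul, map_inv, map_pow, hγ]
    have : g ^ i = Cyclo.modChar (p ^ (n + 1)) σ := hi
    rw [this, inv_mul_cancel]
  · rw [mul_inv_cancel_left]

theorem fixesRoots_conj (m : ℕ) (σ τ : GQ) (hτ : FixesRoots m τ) :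
    FixesRoots m (σ * τ * σ⁻¹) := by
  intro t ht
  have h1 : (σ⁻¹ t) ^ m = 1 := by rw [← map_pow, ht, map_one]
  have h2 : (σ * τ * σ⁻¹) t = σ (τ (σ⁻¹ t)) := rfl
  rw [h2, hτ _ h1]
  have h3 : σ (σ⁻¹ t) = (σ * σ⁻¹) t := rfl
  rw [h3, mul_inv_cancel]
  rfl

theorem fixesRoots_mul (m : ℕ) (σ τ : GQ) (hσ : FixesRoots m σ) (hτ : FixesRoots m τ) :
    FixesRoots m (σ * τ) := by
  intro t ht
  have h2 : (σ * τ) t = σ (τ t) := rfl
  rw [h2, hτ t ht, hσ t ht]

theorem fixesRoots_commutator (m : ℕ) (hm : m ≠ 0) (σ τ : GQ) :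
    FixesRoots m (σ * τ * σ⁻¹ * τ⁻¹) := by
  have : NeZero m := ⟨hm⟩
  apply cyc_fixesRoots_of_modChar
  rw [map_mul, map_mul, map_mul, map_inv, map_inv, mul_comm (Cyclo.modChar m σ), mul_assoc,
    mul_assoc, mul_inv_cancel_left, mul_inv_cancel]

end Fermat.Agent.S56.TW
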