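/-
S56 / W5 leaf L1 (Chebotarev wrapper).  Statement FIXED by helper59; proof helper8.

For a level `U = Gal(ℚ̄/F)` (`F/ℚ` finite Galois), `g ∈ G_ℚ` and a finite set `S` of primes there
is a prime `q ∉ S` such that EVERY Frobenius element at EVERY place over `q` is conjugate modulo
`U` to one and the same power `g ^ k`, and `g` is a power of `g ^ k` modulo `U`.

Proof: `Fermat.Agent.FrobDensity.frobenius_density_open U _ g (S ∪ R)` with `R` the (finite) set of
primes that ramify in `F` (`fc_exists_finset_inertia_le`).  Two places over `q` are conjugate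
(`F4.exists_smul_eq_of_liesOverPrime`), conjugation transports Frobenius elements
(`fc_isFrobeniusAt_conj`), and two Frobenius elements at the same place differ by an element of
the inertia group (`fc_inv_mul_mem_inertia`).
-/
import Fermat.Agent.F4.Datum
import Fermat.Agent.Lib.FrobDensity.Main
import Fermat.Agent.F4.Dict.PlaceSurj
import Fermat.Agent.S56.TW.FrobConj.Ram

set_option autoImplicit false

open scoped Pointwise

namespace Fermat.Agent.S56.TW

open Fermat.Agent.F4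

theorem exists_prime_frob_conj (U : Subgroup GQ) (hU : U ∈ levelsAll.sets) (g : GQ)
    (S : Finset ℕ) :
    ∃ q k j : ℕ, q.Prime ∧ q ∉ S ∧ g⁻¹ * (g ^ k) ^ j ∈ U ∧
      ∀ P : ValuationSubring (AlgebraicClosure ℚ), P.LiesOverPrime q →
        ∀ φ : GQ, P.IsFrobeniusAt φ q → ∃ σ : GQ, (σ * g ^ k * σ⁻¹)⁻¹ * φ ∈ U := by
  classical
  have hnorm : U.Normal := levelsAll.normal U hU
  obtain ⟨F, hFfin, -, rfl⟩ := hU
  have hopen : IsOpen ((F.fixingSubgroup : Subgroup GQ) : Set GQ) := F.fixingSubgroup_isOpen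
  obtain ⟨R, hR⟩ := fc_exists_finset_inertia_le F
  obtain ⟨ℓ, A, τ, k, j, hℓ, hℓS, hA, hτ, hτk, hgj⟩ :=
    Fermat.Agent.FrobDensity.frobenius_density_open F.fixingSubgroup hopen g (S ∪ R)
  have hℓS' : ℓ ∉ S := fun h => hℓS (Finset.mem_union_left _ h)
  have hℓR : ℓ ∉ R := fun h => hℓS (Finset.mem_union_right _ h)
  -- computations in the quotient
  have e1 : (QuotientGroup.mk τ : GQ ⧸ F.fixingSubgroup) = QuotientGroup.mk (g ^ k) :=
    QuotientGroup.eq.mpr hτk
  have e2 : (QuotientGroup.mk g : GQ ⧸ F.fixingSubgroup) = QuotientGroup.mk (τ ^ j) :=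
    QuotientGroup.eq.mpr hgj
  refine ⟨ℓ, k, j, hℓ, hℓS', ?_, fun P hP φ hφ => ?_⟩
  · rw [← QuotientGroup.eq, e2, QuotientGroup.mk_pow, e1, ← QuotientGroup.mk_pow]
  · obtain ⟨σ, rfl⟩ := exists_smul_eq_of_liesOverPrime A P hℓ hA hP
    refine ⟨σ, ?_⟩
    have h1 := fc_isFrobeniusAt_conj A σ τ ℓ hτ
    have h2 := hR ℓ hℓ hℓR (σ • A) hP (fc_inv_mul_mem_inertia (σ • A) _ _ ℓ h1 hφ)
    have e3 : (QuotientGroup.mk (σ * τ * σ⁻¹) : GQ ⧸ F.fixingSubgroup) = QuotientGroup.mk φ :=
      QuotientGroup.eq.mpr h2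
    rw [← QuotientGroup.eq, ← e3, QuotientGroup.mk_mul, QuotientGroup.mk_mul,
      QuotientGroup.mk_mul, QuotientGroup.mk_mul, e1]

end Fermat.Agent.S56.TW
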