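/-
S56 / W5 leaf L4 (a regular semisimple element trivial on `μ_{p^(n+1)}`).  statement FIXED.
Owner: helper63.  PROVED (modulo the stubs of `Cyclo.lean`).

Proof.  `G' = {σ | FixesRoots (p^(n+1)) σ}` is normal with cyclic quotient
(`exists_cyclic_generator`, `fixesRoots_conj` in `Cyclo.lean`).  Suppose every `ρ(σ)`, `σ ∈ G'`,
has a double eigenvalue (`hsplit`).
(1) all `ρ(σ)`, `σ ∈ G'`, scalar: `ρ(G)` is generated by `ρ(γ)` and scalars; an eigenvector of
    `ρ(γ)` (exists by `hsplit`) spans a stable line: contradicts `habs`.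
(2) some `ρ(σ₁)`, `σ₁ ∈ G'`, is not scalar: `u = ρ(σ₁)/α = [1, 1; 0, 1]` in a suitable basis; for
    `g = ρ(τ) = [a, b; c, d]`, `τ ∈ G'`: `g`, `g u`, `g u²` have double eigenvalues, i.e.
    `tr² = 4 det`; `tr (g u) = tr g + c`, `tr (g u²) = tr g + 2 c`, same `det`; so
    `c (2 tr g + c) = 0` and `c (tr g + c) = 0`, hence `c = 0` (`char ≠ 2`).  So the eigenline `L₁`
    of `ρ(σ₁)` is `G'`-stable, and it is the only `G'`-stable line; `G'` is normal, so `L₁` is
    `G`-stable: contradicts `habs`.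
(`habs` implies irreducibility over `k`: base change of a stable line.)
-/
import Fermat.Agent.S56.TW.Cyclo

set_option autoImplicit false
set_option linter.unusedSectionVars false
set_option linter.style.haveILetI false

namespace Fermat.Agent.S56.TW

open Fermat.Agent.F4 Polynomial


section LinAlg

variable {k : Type*} [Field k] {K : Type*} [Field K] [Algebra k K] {V : Type*} [AddCommGroup V] [Module k V]
  [Module.Finite k V]

/-- base change of a submodule over a field extension: same dimension -/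
theorem regular_finrank_baseChange (W : Submodule k V) :
    Module.finrank K (W.baseChange K) = Module.finrank k W := by
  rw [← (Submodule.toBaseChange.toLinearEquiv K W).finrank_eq, Module.finrank_baseChange]

/-- a stable submodule stays stable after base change -/
theorem regular_baseChange_stable (W : Submodule k V) (f : Module.End k V)
    (hf : ∀ x ∈ W, f x ∈ W) : ∀ y ∈ W.baseChange K, f.baseChange K y ∈ W.baseChange K := by
  intro y hy
  rw [Submodule.baseChange_eq_span] at hy ⊢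
  induction hy using Submodule.span_induction with
  | mem x hx =>
    obtain ⟨w, hw, rfl⟩ := hx
    apply Submodule.subset_span
    refine ⟨f w, hf w hw, ?_⟩
    simp [LinearMap.baseChange_tmul]
  | zero => simp
  | add x y _ _ hx hy => rw [map_add]; exact Submodule.add_mem _ hx hy
  | smul a x _ hx => rw [map_smul]; exact Submodule.smul_mem _ a hx

end LinAlg

section Mat

variable {F : Type*} [Field F]

/-- double root ⇒ discriminant zero -/
theorem regular_disc_of_charpoly (M : Matrix (Fin 2) (Fin 2) F) (a : F)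
    (h : M.charpoly = (X - C a) * (X - C a)) : M.trace ^ 2 = 4 * M.det := by
  rw [Matrix.charpoly_fin_two] at h
  have e0 := congrArg (eval 0) h
  have e1 := congrArg (eval 1) h
  simp only [eval_add, eval_sub, eval_mul, eval_pow, eval_X, eval_C] at e0 e1
  linear_combination (M.trace + 2 * a) * (e0 - e1) - 4 * e0

/-- the key computation: if `g`, `g u`, `g u²` all have discriminant zero, `u = [α, 1; 0, α]`,
then `g` is upper triangular. -/
theorem regular_lower_zero (g : Matrix (Fin 2) (Fin 2) F) (α : F) (h2 : (2 : F) ≠ 0)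
    (hα : α ≠ 0) (h0 : g.trace ^ 2 = 4 * g.det)
    (h1 : (g * !![α, 1; 0, α]).trace ^ 2 = 4 * (g * !![α, 1; 0, α]).det)
    (h3 : (g * !![α, 1; 0, α] * !![α, 1; 0, α]).trace ^ 2
      = 4 * (g * !![α, 1; 0, α] * !![α, 1; 0, α]).det) : g 1 0 = 0 := by
  simp only [Matrix.trace_fin_two, Matrix.det_fin_two, Matrix.mul_apply, Fin.sum_univ_two,
    Matrix.of_apply, Matrix.cons_val', Matrix.cons_val_zero, Matrix.cons_val_one,
    Matrix.cons_val_fin_one] at h0 h1 h3
  by_contra hc
  have e1 : 2 * α * (g 0 0 + g 1 1) + g 1 0 = 0 := by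
    apply mul_left_cancel₀ hc
    linear_combination h1 - α ^ 2 * h0
  have e2 : α * (g 0 0 + g 1 1) + g 1 0 = 0 := by
    have h4 : (4 : F) ≠ 0 := by
      have : (4 : F) = 2 * 2 := by norm_num
      rw [this]; exact mul_ne_zero h2 h2
    apply mul_left_cancel₀ hc
    apply mul_left_cancel₀ (pow_ne_zero 2 hα)
    apply mul_left_cancel₀ h4
    linear_combination h3 - α ^ 4 * h0
  have e3 : α * (g 0 0 + g 1 1) = 0 := by linear_combination e1 - e2
  exact hc (by linear_combination e2 - e3)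

end Mat

section Grp

variable {k : Type*} [Field k] {G : Type*} [Group G] {V : Type*} [AddCommGroup V] [Module k V]

/-- the images of group elements are injective -/
theorem regular_rho_inj (ρ : G →* Module.End k V) (σ : G) {v : V} (h : ρ σ v = 0) : v = 0 := by
  have h1 : ρ σ⁻¹ (ρ σ v) = v := by
    rw [← Module.End.mul_apply, ← map_mul, inv_mul_cancel, map_one, Module.End.one_apply]
  rw [← h1, h, map_zero]

/-- Case (1): all elements of the normal subgroup act by scalars. -/
theorem regular_line_of_scalar [Module.Finite k V] (ρ : G →* Module.End k V) (P : G → Prop)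
    (γ : G) (hγ : ∀ σ : G, ∃ (i : ℕ) (τ : G), P τ ∧ σ = γ ^ i * τ)
    (hsplitγ : ∃ α β : k, LinearMap.charpoly (ρ γ) = (X - C α) * (X - C β))
    (hsc : ∀ τ, P τ → ∃ c : k, ρ τ = c • (1 : Module.End k V)) :
    ∃ v : V, v ≠ 0 ∧ ∀ σ : G, ∃ c : k, ρ σ v = c • v := by
  obtain ⟨α, β, hαβ⟩ := hsplitγ
  have hroot : (LinearMap.charpoly (ρ γ)).IsRoot α := by
    rw [hαβ, IsRoot.def]
    simp
  have hev := (Module.End.hasEigenvalue_iff_isRoot_charpoly (ρ γ) α).mpr hroot
  obtain ⟨v, hv⟩ := hev.exists_hasEigenvector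
  have hv1 : ρ γ v = α • v := hv.apply_eq_smul
  have hpow : ∀ i : ℕ, (ρ γ ^ i) v = α ^ i • v := by
    intro i
    induction i with
    | zero => simp
    | succ n ih =>
      rw [pow_succ, Module.End.mul_apply, hv1, map_smul, ih, smul_smul, pow_succ, mul_comm]
  refine ⟨v, hv.2, fun σ => ?_⟩
  obtain ⟨i, τ, hτ, rfl⟩ := hγ σ
  obtain ⟨c, hc⟩ := hsc τ hτ
  refine ⟨α ^ i * c, ?_⟩
  rw [map_mul, map_pow, Module.End.mul_apply, hc, LinearMap.smul_apply, Module.End.one_apply,
    map_smul, hpow, smul_smul, mul_comm]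

/-- Case (2): some element of the normal subgroup is not scalar. -/
theorem regular_line_of_nonscalar [Module.Finite k V] (hV : Module.finrank k V = 2)
    (h2 : (2 : k) ≠ 0)
    (ρ : G →* Module.End k V) (P : G → Prop)
    (hmul : ∀ σ τ, P σ → P τ → P (σ * τ)) (hconj : ∀ σ τ, P τ → P (σ * τ * σ⁻¹))
    (hdbl : ∀ τ, P τ → ∃ α : k, LinearMap.charpoly (ρ τ) = (X - C α) * (X - C α))
    (σ₁ : G) (hσ₁ : P σ₁) (hns : ∀ c : k, ρ σ₁ ≠ c • (1 : Module.End k V)) :
    ∃ v : V, v ≠ 0 ∧ ∀ σ : G, ∃ c : k, ρ σ v = c • v := by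
  obtain ⟨α, hα⟩ := hdbl σ₁ hσ₁
  set N : Module.End k V := ρ σ₁ - α • (1 : Module.End k V) with hN
  have hN0 : N ≠ 0 := fun h => hns α (sub_eq_zero.mp h)
  have hNapp : ∀ x : V, N x = ρ σ₁ x - α • x := by
    intro x
    simp [hN]
  have hNN : ∀ x : V, N (N x) = 0 := by
    intro x
    have h1 := LinearMap.aeval_self_charpoly (ρ σ₁)
    rw [hα] at h1
    have h3 : Polynomial.aeval (ρ σ₁) (X - C α : k[X]) = N := by
      rw [hN, map_sub, aeval_X, aeval_C, Algebra.algebraMap_eq_smul_one]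
    rw [map_mul, h3] at h1
    have := congrArg (fun f : Module.End k V => f x) h1
    simpa using this
  obtain ⟨e₂, he₂⟩ : ∃ e₂ : V, N e₂ ≠ 0 := by
    by_contra hc
    push Not at hc
    exact hN0 (LinearMap.ext hc)
  have hNe₁ : N (N e₂) = 0 := hNN e₂
  have hα0 : α ≠ 0 := by
    intro h0
    have h1 := hNapp (N e₂)
    rw [hNe₁, h0, zero_smul, sub_zero] at h1
    exact he₂ (regular_rho_inj ρ σ₁ h1.symm)
  -- basis
  have hli : LinearIndependent k ![N e₂, e₂] := by
    rw [LinearIndependent.pair_iff]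
    intro s t hst
    have h1 := congrArg N hst
    rw [map_add, map_smul, map_smul, hNe₁, smul_zero, zero_add, map_zero] at h1
    have ht : t = 0 := by
      rcases smul_eq_zero.mp h1 with h | h
      · exact h
      · exact absurd h he₂
    rw [ht, zero_smul, add_zero] at hst
    rcases smul_eq_zero.mp hst with h | h
    · exact ⟨h, ht⟩
    · exact absurd h he₂
  let b : Module.Basis (Fin 2) k V :=
    basisOfLinearIndependentOfCardEqFinrank hli (by simp [hV])
  have hb0 : b 0 = N e₂ := by simp [b]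
  have hb1 : b 1 = e₂ := by simp [b]
  have hexp : ∀ w : V, w = b.repr w 0 • b 0 + b.repr w 1 • b 1 := by
    intro w
    conv_lhs => rw [← b.sum_repr w, Fin.sum_univ_two]
  have hρb0 : ρ σ₁ (b 0) = α • b 0 := by
    have h1 := hNapp (N e₂)
    rw [hNe₁] at h1
    rw [hb0]
    exact (sub_eq_zero.mp h1.symm)
  have hρb1 : ρ σ₁ (b 1) = b 0 + α • b 1 := by
    have h1 := hNapp e₂
    rw [hb0, hb1, h1]
    abel
  have hu : LinearMap.toMatrix b b (ρ σ₁) = !![α, 1; 0, α] := by
    ext i j
    rw [LinearMap.toMatrix_apply]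
    fin_cases i <;> fin_cases j <;>
      simp [hρb0, hρb1]
  have hdisc : ∀ τ, P τ → (LinearMap.toMatrix b b (ρ τ)).trace ^ 2
      = 4 * (LinearMap.toMatrix b b (ρ τ)).det := by
    intro τ hτ
    obtain ⟨a, ha⟩ := hdbl τ hτ
    exact regular_disc_of_charpoly _ a (by rw [LinearMap.charpoly_toMatrix]; exact ha)
  have hupper : ∀ τ, P τ → ∃ a : k, ρ τ (b 0) = a • b 0 := by
    intro τ hτ
    have h0 := hdisc τ hτ
    have h1 := hdisc (τ * σ₁) (hmul _ _ hτ hσ₁)
    have h3 := hdisc (τ * σ₁ * σ₁) (hmul _ _ (hmul _ _ hτ hσ₁) hσ₁)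
    rw [map_mul ρ, LinearMap.toMatrix_mul, hu] at h1
    rw [map_mul ρ, map_mul ρ, LinearMap.toMatrix_mul, LinearMap.toMatrix_mul, hu] at h3
    have hc := regular_lower_zero _ α h2 hα0 h0 h1 h3
    rw [LinearMap.toMatrix_apply] at hc
    refine ⟨b.repr (ρ τ (b 0)) 0, ?_⟩
    conv_lhs => rw [hexp (ρ τ (b 0)), hc, zero_smul, add_zero]
  have hb0ne : b 0 ≠ 0 := b.ne_zero 0
  refine ⟨b 0, hb0ne, fun σ => ?_⟩
  have hτ : P (σ⁻¹ * σ₁ * σ) := by
    have := hconj σ⁻¹ σ₁ hσ₁
    rwa [inv_inv] at this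
  obtain ⟨a, ha⟩ := hupper _ hτ
  set w := ρ σ (b 0) with hw
  have hw0 : w ≠ 0 := fun h => hb0ne (regular_rho_inj ρ σ h)
  have hσ₁w : ρ σ₁ w = a • w := by
    have h1 : ρ σ (ρ (σ⁻¹ * σ₁ * σ) (b 0)) = ρ σ₁ w := by
      rw [← Module.End.mul_apply, ← map_mul, mul_assoc, mul_inv_cancel_left, map_mul,
        Module.End.mul_apply]
    rw [← h1, ha, map_smul]
  have hNw : N w = (a - α) • w := by
    rw [hNapp, hσ₁w, sub_smul]
  have haα : a - α = 0 := by
    have h1 := hNN w
    rw [hNw, map_smul, hNw, smul_smul] at h1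
    rcases smul_eq_zero.mp h1 with h | h
    · exact mul_self_eq_zero.mp h
    · exact absurd h hw0
  rw [haα, zero_smul] at hNw
  have h1 := hexp w
  have h2' : N w = b.repr w 1 • b 0 := by
    conv_lhs => rw [h1, map_add, map_smul, map_smul, hb0, hNe₁, smul_zero, zero_add, hb1, ← hb0]
  rw [hNw] at h2'
  have hy : b.repr w 1 = 0 := by
    rcases smul_eq_zero.mp h2'.symm with h | h
    · exact h
    · exact absurd h hb0ne
  refine ⟨b.repr w 0, ?_⟩
  conv_lhs => rw [h1, hy, zero_smul, add_zero]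

/-- A stable line, if no element of `P` is regular. -/
theorem regular_exists_stable_line [Module.Finite k V] (hV : Module.finrank k V = 2)
    (h2 : (2 : k) ≠ 0)
    (ρ : G →* Module.End k V) (P : G → Prop)
    (hmul : ∀ σ τ, P σ → P τ → P (σ * τ)) (hconj : ∀ σ τ, P τ → P (σ * τ * σ⁻¹))
    (γ : G) (hγ : ∀ σ : G, ∃ (i : ℕ) (τ : G), P τ ∧ σ = γ ^ i * τ)
    (hsplitγ : ∃ α β : k, LinearMap.charpoly (ρ γ) = (X - C α) * (X - C β))
    (hdbl : ∀ τ, P τ → ∃ α : k, LinearMap.charpoly (ρ τ) = (X - C α) * (X - C α)) :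
    ∃ v : V, v ≠ 0 ∧ ∀ σ : G, ∃ c : k, ρ σ v = c • v := by
  by_cases hsc : ∀ τ, P τ → ∃ c : k, ρ τ = c • (1 : Module.End k V)
  · exact regular_line_of_scalar ρ P γ hγ hsplitγ hsc
  · push Not at hsc
    obtain ⟨σ₁, hσ₁, hns⟩ := hsc
    exact regular_line_of_nonscalar hV h2 ρ P hmul hconj hdbl σ₁ hσ₁ hns

end Grp

variable {k : Type} [Field k]

/-- `habs` implies irreducibility over `k`. -/
theorem isIrreducible_of_hyp {p : ℕ} {ρbar : ResidualGaloisRep k} (H : Hyp p ρbar) :
    ρbar.IsIrreducible := by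
  intro W hW
  have habs := H.habs
  have h1 := habs (W.baseChange (AlgebraicClosure k))
    (fun σ y hy => regular_baseChange_stable W (ρbar.ρ σ) (hW σ) y hy)
  rcases h1 with h1 | h1
  · left
    have h2 := regular_finrank_baseChange (K := AlgebraicClosure k) W
    rw [h1, finrank_bot] at h2
    exact Submodule.finrank_eq_zero.mp h2.symm
  · right
    have h2 := regular_finrank_baseChange (K := AlgebraicClosure k) W
    rw [h1, finrank_top, Module.finrank_baseChange] at h2
    exact Submodule.eq_top_of_finrank_eq h2.symm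

theorem exists_regular {p : ℕ} {ρbar : ResidualGaloisRep k} (H : Hyp p ρbar) (n : ℕ) :
    ∃ σ : GQ, FixesRoots (p ^ (n + 1)) σ ∧ IsRegular ρbar σ := by
  by_contra hno
  push Not at hno
  have h2 : (2 : k) ≠ 0 := by
    intro h
    have hchar : CharP k p := (CharP.charP_iff_prime_eq_zero H.prime).mpr H.char
    have h2' : ((2 : ℕ) : k) = 0 := by exact_mod_cast h
    have hd := (CharP.cast_eq_zero_iff k p 2).mp h2'
    exact H.odd ((Nat.prime_dvd_prime_iff_eq H.prime Nat.prime_two).mp hd)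
  have hdbl : ∀ τ : GQ, FixesRoots (p ^ (n + 1)) τ →
      ∃ α : k, LinearMap.charpoly (ρbar.ρ τ) = (X - C α) * (X - C α) := by
    intro τ hτ
    obtain ⟨α, β, h⟩ := H.hsplit τ
    by_cases hαβ : α = β
    · subst hαβ
      exact ⟨α, h⟩
    · exact absurd ⟨α, β, hαβ, h⟩ (hno τ hτ)
  obtain ⟨γ, hγ⟩ := exists_cyclic_generator p n H.prime H.odd
  obtain ⟨v, hv0, hv⟩ := regular_exists_stable_line ρbar.finrank_eq h2 ρbar.ρ
    (FixesRoots (p ^ (n + 1))) (fun σ τ => fixesRoots_mul _ σ τ)
    (fun σ τ => fixesRoots_conj _ σ τ) γ hγ (H.hsplit γ) hdbl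
  have hirr := isIrreducible_of_hyp H
  have hst : ∀ σ : GQ, ∀ x ∈ Submodule.span k {v}, ρbar.ρ σ x ∈ Submodule.span k {v} := by
    intro σ x hx
    obtain ⟨a, rfl⟩ := Submodule.mem_span_singleton.mp hx
    obtain ⟨c, hc⟩ := hv σ
    rw [map_smul, hc, smul_smul]
    exact Submodule.mem_span_singleton.mpr ⟨a * c, rfl⟩
  rcases hirr (Submodule.span k {v}) hst with h | h
  · have hmem : v ∈ Submodule.span k {v} := Submodule.mem_span_singleton_self v
    rw [h] at hmem
    exact hv0 ((Submodule.mem_bot k).mp hmem)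
  · have h1 : Module.finrank k (Submodule.span k {v}) = 1 := finrank_span_singleton hv0
    rw [h, finrank_top, ρbar.finrank_eq] at h1
    omega

end Fermat.Agent.S56.TW
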