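/-
S56 / W5 leaf L6 (bridge to matrices: `H¹(im ρbar, N) = 0`).  Statement FIXED (helper59);
proof: helper34.

Proof.  Choose a basis of `ρbar.V` (`finrank = 2`), `r : G_ℚ →* GL (Fin 2) k` the matrix of `ρbar`,
`Γ = r.range`.  `Γ` has no common eigenvector (`isIrreducible_of_hyp`), all characteristic
polynomials split (`H.hsplit`), and `det` is not of exponent `2` on `Γ` if `p ≠ 3`
(`exists_det_sq_ne_one`).  The trace form identifies `Module.Dual k (ad0Sub ρbar)` with the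
trace-zero matrices, `(g • f) = tr (X_{g f} ·)` with `X_{g f} = det g • (g X_f g⁻¹)`: for
`γ = r σ ∈ Γ` put `ψ γ = X_{c σ}` (well defined: `c (σ τ) = c σ` for `τ ∈ ker ρbar` by `h`),
`ψ = 0` outside `Γ`.  `ψ` is a twisted cocycle on `Γ`; `GT.gt_main` gives `X` with
`ψ γ = tad γ X - X`; `x = tr (X ·)`.
-/
import Fermat.Agent.S56.TW.Regular
import Fermat.Agent.S56.TW.GT.Main
import Fermat.Agent.S56.TW.Bridge.TraceForm

set_option autoImplicit false
set_option linter.style.haveILetI false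

namespace Fermat.Agent.S56.TW

open Fermat.Agent.F4 Polynomial Fermat.Agent.S56.GT

variable {k : Type} [Field k]

/-! ### the matrix form of `ρbar` -/

/-- a basis of `ρbar.V` -/
noncomputable def brBasis (ρbar : ResidualGaloisRep k) : Module.Basis (Fin 2) k ρbar.V :=
  Module.finBasisOfFinrankEq k ρbar.V ρbar.finrank_eq

/-- the matrix of an endomorphism -/
noncomputable def brMat (ρbar : ResidualGaloisRep k) :
    Module.End k ρbar.V ≃ₐ[k] Matrix (Fin 2) (Fin 2) k :=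
  LinearMap.toMatrixAlgEquiv (brBasis ρbar)

/-- `ρbar` in matrix form -/
noncomputable def brRep (ρbar : ResidualGaloisRep k) : GQ →* GL (Fin 2) k :=
  (((brMat ρbar : Module.End k ρbar.V →ₐ[k] Matrix (Fin 2) (Fin 2) k) :
    Module.End k ρbar.V →* Matrix (Fin 2) (Fin 2) k).comp ρbar.ρ).toHomUnits

theorem brRep_coe (ρbar : ResidualGaloisRep k) (σ : GQ) :
    ((brRep ρbar σ : GL (Fin 2) k) : Matrix (Fin 2) (Fin 2) k) = brMat ρbar (ρbar.ρ σ) := rfl

theorem brRep_inv_coe (ρbar : ResidualGaloisRep k) (σ : GQ) :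
    (((brRep ρbar σ)⁻¹ : GL (Fin 2) k) : Matrix (Fin 2) (Fin 2) k) = brMat ρbar (ρbar.ρ σ⁻¹) := by
  rw [← map_inv, brRep_coe]

theorem brRep_det (ρbar : ResidualGaloisRep k) (σ : GQ) :
    ((Matrix.GeneralLinearGroup.det (brRep ρbar σ) : kˣ) : k) = LinearMap.det (ρbar.ρ σ) := by
  rw [Matrix.GeneralLinearGroup.val_det_apply, brRep_coe]
  exact LinearMap.det_toMatrix (brBasis ρbar) (ρbar.ρ σ)

theorem brMat_trace (ρbar : ResidualGaloisRep k) (f : Module.End k ρbar.V) :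
    (brMat ρbar f).trace = LinearMap.trace k ρbar.V f :=
  (LinearMap.trace_eq_matrix_trace k (brBasis ρbar) f).symm

theorem brRep_eq_iff (ρbar : ResidualGaloisRep k) (σ τ : GQ) :
    brRep ρbar σ = brRep ρbar τ ↔ ρbar.ρ σ = ρbar.ρ τ := by
  constructor
  · intro h
    have := congrArg (fun g : GL (Fin 2) k => (g : Matrix (Fin 2) (Fin 2) k)) h
    simp only [brRep_coe] at this
    exact (brMat ρbar).injective this
  · intro h
    apply Units.ext
    rw [brRep_coe, brRep_coe, h]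

/-! ### the hypotheses of `GT.gt_main` for the image of `ρbar` -/

theorem br_hsplit {p : ℕ} {ρbar : ResidualGaloisRep k} (H : Hyp p ρbar) :
    ∀ g ∈ (brRep ρbar).range, ∃ α β : k, (g : Matrix (Fin 2) (Fin 2) k).charpoly =
      (Polynomial.X - Polynomial.C α) * (Polynomial.X - Polynomial.C β) := by
  rintro _ ⟨σ, rfl⟩
  obtain ⟨α, β, h⟩ := H.hsplit σ
  refine ⟨α, β, ?_⟩
  rw [brRep_coe, ← h]
  exact LinearMap.charpoly_toMatrix (ρbar.ρ σ) (brBasis ρbar)

theorem br_hdet {p : ℕ} {ρbar : ResidualGaloisRep k} (H : Hyp p ρbar) (hp3 : p ≠ 3) :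
    ∃ g ∈ (brRep ρbar).range, ((Matrix.GeneralLinearGroup.det g : kˣ) : k) ^ 2 ≠ 1 := by
  obtain ⟨σ, hσ⟩ := exists_det_sq_ne_one H hp3
  exact ⟨brRep ρbar σ, ⟨σ, rfl⟩, by rw [brRep_det]; exact hσ⟩

theorem br_hirr {p : ℕ} {ρbar : ResidualGaloisRep k} (H : Hyp p ρbar) :
    ¬ ∃ v : Fin 2 → k, v ≠ 0 ∧
      ∀ g ∈ (brRep ρbar).range, ∃ a : k, (g : Matrix (Fin 2) (Fin 2) k).mulVec v = a • v := by
  rintro ⟨v, hv, hv'⟩
  have hirr := isIrreducible_of_hyp H
  set b := brBasis ρbar with hb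
  set w : ρbar.V := b.equivFun.symm v with hw
  have hw0 : w ≠ 0 := by
    intro h0
    apply hv
    have : b.equivFun w = v := by rw [hw, LinearEquiv.apply_symm_apply]
    rw [← this, h0, map_zero]
  have hrepr : (b.repr w : Fin 2 → k) = v := by
    have : b.equivFun w = v := by rw [hw, LinearEquiv.apply_symm_apply]
    exact this
  have hstab : ∀ σ : GQ, ∀ x ∈ Submodule.span k {w}, ρbar.ρ σ x ∈ Submodule.span k {w} := by
    intro σ x hx
    obtain ⟨t, rfl⟩ := Submodule.mem_span_singleton.mp hx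
    rw [map_smul]
    refine Submodule.smul_mem _ _ ?_
    obtain ⟨a, ha⟩ := hv' (brRep ρbar σ) ⟨σ, rfl⟩
    have h1 : (b.repr (ρbar.ρ σ w) : Fin 2 → k) = a • v := by
      rw [← ha, brRep_coe, ← hrepr]
      exact (LinearMap.toMatrix_mulVec_repr b b (ρbar.ρ σ) w).symm
    have h2 : ρbar.ρ σ w = a • w := by
      apply b.repr.injective
      apply DFunLike.coe_injective
      rw [h1, map_smul, Finsupp.coe_smul, hrepr]
    rw [h2]
    exact Submodule.smul_mem _ _ (Submodule.mem_span_singleton_self w)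
  rcases hirr _ hstab with h | h
  · exact hw0 ((Submodule.span_singleton_eq_bot).mp h)
  · have h1 : Module.finrank k (Submodule.span k {w}) = 1 := finrank_span_singleton hw0
    rw [h, finrank_top, ρbar.finrank_eq] at h1
    exact absurd h1 (by norm_num)

/-! ### the trace form `X ↦ tr (X ·)` with values in `ad0Dual` -/

/-- evaluation of an element of `ad0Dual ρbar = Dual (ad0Sub ρbar)` -/
noncomputable def brEval (ρbar : ResidualGaloisRep k) (f : ad0Dual ρbar) (a : ad0Sub ρbar) : k :=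
  (show Module.Dual k (ad0Sub ρbar) from f) a

theorem brEval_ext (ρbar : ResidualGaloisRep k) {f f' : ad0Dual ρbar}
    (h : ∀ a, brEval ρbar f a = brEval ρbar f' a) : f = f' :=
  LinearMap.ext (f := (show Module.Dual k (ad0Sub ρbar) from f))
    (g := (show Module.Dual k (ad0Sub ρbar) from f')) h

theorem brEval_add (ρbar : ResidualGaloisRep k) (f f' : ad0Dual ρbar) (a : ad0Sub ρbar) :
    brEval ρbar (f + f') a = brEval ρbar f a + brEval ρbar f' a := rfl

theorem brEval_sub (ρbar : ResidualGaloisRep k) (f f' : ad0Dual ρbar) (a : ad0Sub ρbar) :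
    brEval ρbar (f - f') a = brEval ρbar f a - brEval ρbar f' a := rfl

theorem brEval_zero (ρbar : ResidualGaloisRep k) (a : ad0Sub ρbar) :
    brEval ρbar (0 : ad0Dual ρbar) a = 0 := rfl

/-- the conjugate `ρ(g)⁻¹ a ρ(g)` of a trace-zero endomorphism -/
noncomputable def brConj (ρbar : ResidualGaloisRep k) (g : GQ) (a : ad0Sub ρbar) : ad0Sub ρbar :=
  ⟨ρbar.ρ g⁻¹ * (a.1 * ρbar.ρ g), by
    have h := ad0Sub_le_comap ρbar g⁻¹ a.2
    have h1 : adRep ρbar g⁻¹ a.1 = ρbar.ρ g⁻¹ * (a.1 * ρbar.ρ g⁻¹⁻¹) := rfl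
    rw [inv_inv] at h1
    rw [← h1]
    exact h⟩

/-- the action of `G_ℚ` on `ad0Dual ρbar`, evaluated -/
theorem brEval_ρ (ρbar : ResidualGaloisRep k) (g : GQ) (f : ad0Dual ρbar) (a : ad0Sub ρbar) :
    brEval ρbar ((ad0Dual ρbar).ρ g f) a
      = LinearMap.det (ρbar.ρ g) * brEval ρbar f (brConj ρbar g a) := by
  have h : brConj ρbar g a = (ad0 ρbar).ρ g⁻¹ a := by
    apply Subtype.ext
    show ρbar.ρ g⁻¹ * (a.1 * ρbar.ρ g) = ρbar.ρ g⁻¹ * (a.1 * ρbar.ρ g⁻¹⁻¹)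
    rw [inv_inv]
  rw [h]
  rfl

/-- `X ↦ (a ↦ tr (X * mat a))`. -/
noncomputable def brΦ (ρbar : ResidualGaloisRep k) (X : Matrix (Fin 2) (Fin 2) k) :
    ad0Dual ρbar :=
  ((Matrix.traceLinearMap (Fin 2) k k) ∘ₗ (LinearMap.mulLeft k X) ∘ₗ
    (brMat ρbar).toLinearMap ∘ₗ (ad0Sub ρbar).subtype : Module.Dual k (ad0Sub ρbar))

theorem brΦ_apply (ρbar : ResidualGaloisRep k) (X : Matrix (Fin 2) (Fin 2) k)
    (a : ad0Sub ρbar) : brEval ρbar (brΦ ρbar X) a = (X * brMat ρbar a.1).trace := rfl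

theorem brΦ_add (ρbar : ResidualGaloisRep k) (X Y : Matrix (Fin 2) (Fin 2) k) :
    brΦ ρbar (X + Y) = brΦ ρbar X + brΦ ρbar Y := by
  refine brEval_ext ρbar fun a => ?_
  rw [brEval_add, brΦ_apply, brΦ_apply, brΦ_apply, add_mul, Matrix.trace_add]

theorem brΦ_sub (ρbar : ResidualGaloisRep k) (X Y : Matrix (Fin 2) (Fin 2) k) :
    brΦ ρbar (X - Y) = brΦ ρbar X - brΦ ρbar Y := by
  refine brEval_ext ρbar fun a => ?_
  rw [brEval_sub, brΦ_apply, brΦ_apply, brΦ_apply, sub_mul, Matrix.trace_sub]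

/-- every trace-zero matrix is the matrix of an element of `ad0Sub` -/
theorem br_exists_ad0 (ρbar : ResidualGaloisRep k) (A : Matrix (Fin 2) (Fin 2) k)
    (hA : A.trace = 0) : ∃ a : ad0Sub ρbar, brMat ρbar a.1 = A := by
  refine ⟨⟨(brMat ρbar).symm A, ?_⟩, (brMat ρbar).apply_symm_apply A⟩
  show LinearMap.trace k ρbar.V ((brMat ρbar).symm A) = 0
  rw [← brMat_trace, (brMat ρbar).apply_symm_apply, hA]

theorem br_ad0_trace (ρbar : ResidualGaloisRep k) (a : ad0Sub ρbar) :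
    (brMat ρbar a.1).trace = 0 := by
  rw [brMat_trace]
  exact a.2

/-- injectivity of the trace form on the trace-zero matrices -/
theorem brΦ_injective (h2 : (2 : k) ≠ 0) (ρbar : ResidualGaloisRep k)
    (X : Matrix (Fin 2) (Fin 2) k) (hX : X.trace = 0) (h : brΦ ρbar X = 0) : X = 0 := by
  refine br_eq_zero_of_trace_mul h2 X hX fun A hA => ?_
  obtain ⟨a, rfl⟩ := br_exists_ad0 ρbar A hA
  rw [← brΦ_apply, h, brEval_zero]

/-- surjectivity of the trace form -/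
theorem brΦ_surjective (h2 : (2 : k) ≠ 0) (ρbar : ResidualGaloisRep k) (f : ad0Dual ρbar) :
    ∃ X : Matrix (Fin 2) (Fin 2) k, X.trace = 0 ∧ brΦ ρbar X = f := by
  -- extend `f` to all matrices along `A ↦ A - (tr A / 2) • 1`
  let P : Matrix (Fin 2) (Fin 2) k →ₗ[k] Module.End k ρbar.V :=
    (brMat ρbar).symm.toLinearMap ∘ₗ
      (LinearMap.id - (LinearMap.toSpanSingleton k (Matrix (Fin 2) (Fin 2) k)
        ((2 : k)⁻¹ • (1 : Matrix (Fin 2) (Fin 2) k))) ∘ₗ (Matrix.traceLinearMap (Fin 2) k k))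
  have hP : ∀ A, P A = (brMat ρbar).symm (A - A.trace • ((2 : k)⁻¹ • 1)) := fun A => rfl
  have hPtr : ∀ A, LinearMap.trace k ρbar.V (P A) = 0 := by
    intro A
    rw [← brMat_trace, hP, (brMat ρbar).apply_symm_apply, Matrix.trace_sub, Matrix.trace_smul,
      Matrix.trace_smul, Matrix.trace_one, Fintype.card_fin, smul_eq_mul, smul_eq_mul]
    have : ((2 : ℕ) : k) = 2 := by norm_num
    rw [this, inv_mul_cancel₀ h2, mul_one, sub_self]
  let P' : Matrix (Fin 2) (Fin 2) k →ₗ[k] ad0Sub ρbar :=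
    LinearMap.codRestrict (ad0Sub ρbar) P (fun A => hPtr A)
  obtain ⟨X, hX, hXF⟩ :=
    br_exists_trace_mul h2 ((show Module.Dual k (ad0Sub ρbar) from f) ∘ₗ P')
  refine ⟨X, hX, brEval_ext ρbar fun a => ?_⟩
  rw [brΦ_apply, hXF _ (br_ad0_trace ρbar a), LinearMap.comp_apply]
  show brEval ρbar f (P' (brMat ρbar a.1)) = brEval ρbar f a
  congr 1
  apply Subtype.ext
  show P (brMat ρbar a.1) = a.1
  rw [hP, br_ad0_trace, zero_smul, sub_zero, (brMat ρbar).symm_apply_apply]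

/-- equivariance of the trace form: `g • tr (X ·) = tr (tad g X ·)` -/
theorem brΦ_tad (ρbar : ResidualGaloisRep k) (g : GQ) (X : Matrix (Fin 2) (Fin 2) k) :
    (ad0Dual ρbar).ρ g (brΦ ρbar X) = brΦ ρbar (tad (brRep ρbar g) X) := by
  refine brEval_ext ρbar fun a => ?_
  rw [brEval_ρ, brΦ_apply, brΦ_apply]
  show LinearMap.det (ρbar.ρ g) * (X * brMat ρbar (ρbar.ρ g⁻¹ * (a.1 * ρbar.ρ g))).trace = _
  rw [map_mul, map_mul, ← brRep_det]
  unfold tad
  rw [Matrix.smul_mul, Matrix.trace_smul, brRep_coe, brRep_inv_coe, smul_eq_mul]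
  congr 1
  rw [← Matrix.mul_assoc, ← Matrix.mul_assoc, Matrix.trace_mul_comm, ← Matrix.mul_assoc,
    ← Matrix.mul_assoc]

/-! ### the bridge -/

theorem coboundary_of_vanish_ker {p : ℕ} {ρbar : ResidualGaloisRep k} (H : Hyp p ρbar)
    (c : GQ → ad0Dual ρbar) (hc : IsCoc (ad0Dual ρbar) c)
    (h : ∀ τ : GQ, ρbar.ρ τ = 1 → c τ = 0) :
    ∃ x : ad0Dual ρbar, ∀ g : GQ, c g = (ad0Dual ρbar).ρ g x - x := by
  classical
  haveI := H.finite
  haveI : Fact p.Prime := ⟨H.prime⟩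
  haveI : CharP k p := (CharP.charP_iff_prime_eq_zero H.prime).mpr H.char
  have h2 : (2 : k) ≠ 0 := by
    intro h0
    have h1 : ((2 : ℕ) : k) = 0 := by rw [Nat.cast_ofNat]; exact h0
    have h3 : p ∣ 2 := (CharP.cast_eq_zero_iff k p 2).mp h1
    exact H.odd ((Nat.prime_dvd_prime_iff_eq H.prime Nat.prime_two).mp h3)
  -- `c` factors through the matrix representation
  have hfac : ∀ σ τ : GQ, brRep ρbar σ = brRep ρbar τ → c σ = c τ := by
    intro σ τ hστ
    have h1 : ρbar.ρ σ = ρbar.ρ τ := (brRep_eq_iff ρbar σ τ).mp hστ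
    have h3 : ρbar.ρ (τ⁻¹ * σ) = 1 := by
      rw [map_mul, h1, ← map_mul, inv_mul_cancel, map_one]
    have h4 := hc τ (τ⁻¹ * σ)
    rw [mul_inv_cancel_left, h _ h3, map_zero, zero_add] at h4
    exact h4
  -- the matrix cocycle
  choose Xof hXtr hXΦ using brΦ_surjective h2 ρbar
  let ψ : GL (Fin 2) k → Matrix (Fin 2) (Fin 2) k := fun γ =>
    if hγ : ∃ σ, brRep ρbar σ = γ then Xof (c hγ.choose) else 0
  have hψr : ∀ σ : GQ, ψ (brRep ρbar σ) = Xof (c σ) := by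
    intro σ
    have hγ : ∃ σ', brRep ρbar σ' = brRep ρbar σ := ⟨σ, rfl⟩
    simp only [ψ, dif_pos hγ]
    rw [hfac _ _ hγ.choose_spec]
  have hΦψ : ∀ σ : GQ, brΦ ρbar (ψ (brRep ρbar σ)) = c σ := fun σ => by rw [hψr, hXΦ]
  have hψtr : ∀ σ : GQ, (ψ (brRep ρbar σ)).trace = 0 := fun σ => by rw [hψr]; exact hXtr _
  have hcoc : IsTCocycle (brRep ρbar).range ψ := by
    refine ⟨?_, ?_⟩
    · rintro _ ⟨σ, rfl⟩
      exact hψtr σ
    · rintro _ ⟨σ, rfl⟩ _ ⟨τ, rfl⟩
      rw [← map_mul]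
      have hd : ψ (brRep ρbar (σ * τ))
          - (ψ (brRep ρbar σ) + tad (brRep ρbar σ) (ψ (brRep ρbar τ))) = 0 := by
        apply brΦ_injective h2 ρbar
        · rw [Matrix.trace_sub, Matrix.trace_add, hψtr, hψtr,
            avg_trace_tad_eq_zero _ (hψtr τ), add_zero, sub_zero]
        · rw [brΦ_sub, brΦ_add, hΦψ, hΦψ, ← brΦ_tad, hΦψ, hc σ τ]
          abel
      exact sub_eq_zero.mp hd
  obtain ⟨X, -, hX'⟩ := gt_main p H.odd (brRep ρbar).range (br_hirr H) (br_hsplit H)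
    (fun h3 => br_hdet H h3) ψ hcoc
  refine ⟨brΦ ρbar X, fun g => ?_⟩
  rw [← hΦψ g, hX' _ ⟨g, rfl⟩, brΦ_sub, brΦ_tad]

end Fermat.Agent.S56.TW
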