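/-
S56 / W5 leaf L5 (the soft half of the existence of `σ`).  Statements FIXED (helper59);
proofs: helper34.

`exists_sigma_of_ne_zero`: let `Hn = {τ | ρbar τ = 1 ∧ FixesRoots (p^(n+1)) τ}` (normal, acts
trivially on `N`).  `c` restricted to `Hn` is a homomorphism with `c (g τ g⁻¹) = g • c τ`, so the
`k`-span `W` of `c '' Hn` is a stable subspace, nonzero by `hτ`; `W = ⊤` (`ad0Dual_irreducible`).
Take `σ₀` regular fixing the roots of unity (`exists_regular`); `(σ₀ - 1) N ≠ N`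
(`exists_not_inRange_of_regular`), so some `τ' ∈ Hn` has `c τ' ∉ (σ₀ - 1) N`.  If
`c σ₀ ∉ (σ₀ - 1) N` take `σ = σ₀`; otherwise `σ = τ' σ₀`: `c (τ' σ₀) = c τ' + c σ₀`,
`ρbar (τ' σ₀) = ρbar σ₀`, same action on `N`.

`vanish_ker_of_vanish`: for `τ ∈ ker ρbar` and `g ∈ G`, `g τ g⁻¹ τ⁻¹ ∈ Hn` (`fixesRoots_commutator`),
so `c (g τ g⁻¹) = c τ`; also `c (g τ g⁻¹) = g • c τ`; so `c τ` is invariant, hence `0`
(`ad0Dual_invariants`).
-/
import Fermat.Agent.S56.TW.Ad0Irr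
import Fermat.Agent.S56.TW.Regular

set_option autoImplicit false

namespace Fermat.Agent.S56.TW

open Fermat.Agent.F4 Polynomial

variable {k : Type} [Field k]

/-! ### the kernel of `ρbar` acts trivially on `N` -/

theorem soft_ρ_inv_eq_one {ρbar : ResidualGaloisRep k} {τ : GQ} (hτ : ρbar.ρ τ = 1) :
    ρbar.ρ τ⁻¹ = 1 := by
  have h := map_mul ρbar.ρ τ⁻¹ τ
  rw [inv_mul_cancel, map_one, hτ, mul_one] at h
  exact h.symm

/-- The kernel of `ρbar` acts trivially on `N = ad0Dual ρbar`. -/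
theorem soft_ρ_eq_self {ρbar : ResidualGaloisRep k} {τ : GQ} (hτ : ρbar.ρ τ = 1)
    (x : ad0Dual ρbar) : (ad0Dual ρbar).ρ τ x = x := by
  have hτ' := soft_ρ_inv_eq_one hτ
  have hdet : ((detChar ρbar τ : kˣ) : k) = 1 := by
    show LinearMap.det (ρbar.ρ τ) = 1
    rw [hτ, map_one]
  have hfix : ∀ m : ad0 ρbar, (ad0 ρbar).ρ τ⁻¹ m = m := by
    intro m
    apply Subtype.ext
    show ρbar.ρ τ⁻¹ * ((m : ↥(ad0Sub ρbar)).1 * ρbar.ρ τ⁻¹⁻¹) = (m : ↥(ad0Sub ρbar)).1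
    rw [inv_inv, hτ, hτ', mul_one, one_mul]
  have key : ∀ f' : Module.Dual k (ad0 ρbar),
      ((ad0 ρbar).dualTwist (detChar ρbar)).ρ τ f' = f' := by
    intro f'
    rw [Rep.dualTwist_ρ_apply, hdet, one_smul]
    refine LinearMap.ext fun m => ?_
    show f' ((ad0 ρbar).ρ τ⁻¹ m) = f' m
    rw [hfix m]
  exact key x

/-- `c (τ g) = c τ + c g`-type rules for `τ` in the kernel. -/
theorem soft_coc_one {N : Rep k GQ} {c : GQ → N} (hc : IsCoc N c) : c 1 = 0 := by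
  have h := hc 1 1
  rw [mul_one, map_one, Module.End.one_apply] at h
  exact left_eq_add.mp h

theorem soft_coc_inv {N : Rep k GQ} {c : GQ → N} (hc : IsCoc N c) (g : GQ) :
    N.ρ g (c g⁻¹) + c g = 0 := by
  rw [← hc g g⁻¹, mul_inv_cancel, soft_coc_one hc]

/-- `c (g τ g⁻¹) = g • c τ` for `τ` in the kernel of `ρbar`. -/
theorem soft_coc_conj {ρbar : ResidualGaloisRep k} {c : GQ → ad0Dual ρbar}
    (hc : IsCoc (ad0Dual ρbar) c) {τ : GQ} (hτ : ρbar.ρ τ = 1) (g : GQ) :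
    c (g * τ * g⁻¹) = (ad0Dual ρbar).ρ g (c τ) := by
  rw [mul_assoc, hc g (τ * g⁻¹), hc τ g⁻¹, soft_ρ_eq_self hτ, map_add, add_assoc,
    add_comm ((ad0Dual ρbar).ρ g (c τ)), ← add_assoc, soft_coc_inv hc g, zero_add]

/-- `c (τ g) = c g + c τ` for `τ` in the kernel of `ρbar`. -/
theorem soft_coc_ker_mul {ρbar : ResidualGaloisRep k} {c : GQ → ad0Dual ρbar}
    (hc : IsCoc (ad0Dual ρbar) c) {τ : GQ} (hτ : ρbar.ρ τ = 1) (g : GQ) :
    c (τ * g) = c g + c τ := by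
  rw [hc τ g, soft_ρ_eq_self hτ]

theorem soft_ρ_conj {ρbar : ResidualGaloisRep k} {τ : GQ} (hτ : ρbar.ρ τ = 1) (g : GQ) :
    ρbar.ρ (g * τ * g⁻¹) = 1 := by
  rw [map_mul, map_mul, hτ, mul_one, ← map_mul, mul_inv_cancel, map_one]

theorem soft_fixesRoots_of_pow {p n : ℕ} {σ : GQ} (h : FixesRoots (p ^ (n + 1)) σ) :
    FixesRoots p σ := by
  intro t ht
  apply h t
  rw [pow_succ', pow_mul, ht, one_pow]

theorem vanish_ker_of_vanish {p : ℕ} {ρbar : ResidualGaloisRep k} (H : Hyp p ρbar) (n : ℕ)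
    (c : GQ → ad0Dual ρbar) (hc : IsCoc (ad0Dual ρbar) c)
    (h : ∀ τ : GQ, ρbar.ρ τ = 1 → FixesRoots (p ^ (n + 1)) τ → c τ = 0) :
    ∀ τ : GQ, ρbar.ρ τ = 1 → c τ = 0 := by
  intro τ hτ
  apply ad0Dual_invariants H
  intro g
  have hm : p ^ (n + 1) ≠ 0 := pow_ne_zero _ H.prime.ne_zero
  have hτ' := soft_ρ_inv_eq_one hτ
  -- the commutator
  have hη : ρbar.ρ (g * τ * g⁻¹ * τ⁻¹) = 1 := by
    rw [map_mul, soft_ρ_conj hτ g, hτ', mul_one]
  have hcη : c (g * τ * g⁻¹ * τ⁻¹) = 0 := h _ hη (fixesRoots_commutator _ hm g τ)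
  have h1 : g * τ * g⁻¹ = (g * τ * g⁻¹ * τ⁻¹) * τ := by group
  have h2 := soft_coc_conj hc hτ g
  rw [h1, soft_coc_ker_mul hc hη, hcη, add_zero] at h2
  exact h2.symm

theorem exists_sigma_of_ne_zero {p : ℕ} {ρbar : ResidualGaloisRep k} (H : Hyp p ρbar) (n : ℕ)
    (c : GQ → ad0Dual ρbar) (hc : IsCoc (ad0Dual ρbar) c)
    (τ : GQ) (hτρ : ρbar.ρ τ = 1) (hτμ : FixesRoots (p ^ (n + 1)) τ) (hτ : c τ ≠ 0) :
    ∃ σ : GQ, FixesRoots (p ^ (n + 1)) σ ∧ IsRegular ρbar σ ∧ ¬ InRange (ad0Dual ρbar) c σ := by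
  -- the span of the values of `c` on `Hn`
  set W : Submodule k (ad0Dual ρbar) :=
    Submodule.span k {y | ∃ τ' : GQ, ρbar.ρ τ' = 1 ∧ FixesRoots (p ^ (n + 1)) τ' ∧ c τ' = y}
    with hW
  have hWstab : ∀ g : GQ, ∀ x ∈ W, (ad0Dual ρbar).ρ g x ∈ W := by
    intro g x hx
    induction hx using Submodule.span_induction with
    | mem y hy =>
      obtain ⟨τ', h1, h2, rfl⟩ := hy
      refine Submodule.subset_span ⟨g * τ' * g⁻¹, soft_ρ_conj h1 g, fixesRoots_conj _ g τ' h2, ?_⟩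
      exact soft_coc_conj hc h1 g
    | zero => rw [map_zero]; exact W.zero_mem
    | add x y _ _ hx hy => rw [map_add]; exact W.add_mem hx hy
    | smul a x _ hx => rw [map_smul]; exact W.smul_mem a hx
  have hWtop : W = ⊤ := by
    rcases ad0Dual_irreducible H W hWstab with h | h
    · exfalso
      apply hτ
      have : c τ ∈ W := Submodule.subset_span ⟨τ, hτρ, hτμ, rfl⟩
      rw [h] at this
      exact (Submodule.mem_bot k).mp this
    · exact h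
  -- a regular element
  obtain ⟨σ₀, hσ₀μ, hσ₀reg⟩ := exists_regular H n
  obtain ⟨y, hy⟩ := exists_not_inRange_of_regular H σ₀ (soft_fixesRoots_of_pow hσ₀μ) hσ₀reg
  set R : Submodule k (ad0Dual ρbar) :=
    LinearMap.range ((ad0Dual ρbar).ρ σ₀ - 1) with hR
  have hRmem : ∀ z : ad0Dual ρbar, z ∈ R ↔ ∃ x : ad0Dual ρbar, z = (ad0Dual ρbar).ρ σ₀ x - x := by
    intro z
    constructor
    · rintro ⟨x, hx⟩
      exact ⟨x, hx.symm⟩
    · rintro ⟨x, hx⟩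
      exact ⟨x, hx.symm⟩
  have hyR : y ∉ R := fun h => by
    obtain ⟨x, hx⟩ := (hRmem y).mp h
    exact hy x hx
  -- some `c τ'` is not in `R`
  have hex : ∃ τ' : GQ, ρbar.ρ τ' = 1 ∧ FixesRoots (p ^ (n + 1)) τ' ∧ c τ' ∉ R := by
    by_contra hno
    have hno' : ∀ τ' : GQ, ρbar.ρ τ' = 1 → FixesRoots (p ^ (n + 1)) τ' → c τ' ∈ R :=
      fun τ' h1 h2 => by
        by_contra h3
        exact hno ⟨τ', h1, h2, h3⟩
    have hle : W ≤ R := by
      rw [hW]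
      apply Submodule.span_le.mpr
      rintro _ ⟨τ', h1, h2, rfl⟩
      exact hno' τ' h1 h2
    apply hyR
    apply hle
    rw [hWtop]
    exact Submodule.mem_top
  obtain ⟨τ', hτ'ρ, hτ'μ, hτ'R⟩ := hex
  by_cases hcase : c σ₀ ∈ R
  · refine ⟨τ' * σ₀, fixesRoots_mul _ τ' σ₀ hτ'μ hσ₀μ, ?_, ?_⟩
    · obtain ⟨α, β, hαβ, hch⟩ := hσ₀reg
      refine ⟨α, β, hαβ, ?_⟩
      rw [map_mul, hτ'ρ, one_mul]
      exact hch
    · rintro ⟨x, hx⟩
      apply hτ'R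
      rw [soft_coc_ker_mul hc hτ'ρ σ₀] at hx
      have h1 : (ad0Dual ρbar).ρ (τ' * σ₀) x = (ad0Dual ρbar).ρ σ₀ x := by
        rw [map_mul, Module.End.mul_apply, soft_ρ_eq_self hτ'ρ]
      rw [h1] at hx
      have h2 : c τ' = ((ad0Dual ρbar).ρ σ₀ x - x) - c σ₀ := by
        rw [← hx]
        abel
      rw [h2]
      exact R.sub_mem ((hRmem _).mpr ⟨x, rfl⟩) hcase
  · refine ⟨σ₀, hσ₀μ, hσ₀reg, ?_⟩
    rintro ⟨x, hx⟩
    exact hcase ((hRmem _).mpr ⟨x, hx⟩)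

end Fermat.Agent.S56.TW
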