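/-
S56 / W5 (L7): for a cocycle which is not a coboundary there is `σ`, trivial on `μ_{p^(n+1)}`,
with `ρbar σ` regular and `c σ ∉ (σ - 1) N`.  From `Soft.lean` and `Bridge.lean`.
Owner: helper59.
-/
import Fermat.Agent.S56.TW.Soft
import Fermat.Agent.S56.TW.Bridge

set_option autoImplicit false

namespace Fermat.Agent.S56.TW

open Fermat.Agent.F4 Polynomial

variable {k : Type} [Field k]

theorem exists_sigma {p : ℕ} {ρbar : ResidualGaloisRep k} (H : Hyp p ρbar) (n : ℕ)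
    (c : GQ → ad0Dual ρbar) (hc : IsCoc (ad0Dual ρbar) c)
    (hnc : ¬ ∃ x : ad0Dual ρbar, ∀ g : GQ, c g = (ad0Dual ρbar).ρ g x - x) :
    ∃ σ : GQ, FixesRoots (p ^ (n + 1)) σ ∧ IsRegular ρbar σ ∧ ¬ InRange (ad0Dual ρbar) c σ := by
  by_cases h : ∀ τ : GQ, ρbar.ρ τ = 1 → FixesRoots (p ^ (n + 1)) τ → c τ = 0
  · exact absurd (coboundary_of_vanish_ker H c hc (vanish_ker_of_vanish H n c hc h)) hnc
  · simp only [not_forall] at h
    obtain ⟨τ, hτρ, hτμ, hτ⟩ := h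
    exact exists_sigma_of_ne_zero H n c hc τ hτρ hτμ hτ

end Fermat.Agent.S56.TW
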