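/-
S56 / W5 leaf L8 (one Taylor-Wiles prime for one class).  Statement FIXED by helper59;
proof helper8.

Proof.  `k` is finite and `Ψ` finite-dimensional, so there is a level `U ∈ levelsAll.sets` with:
`ρbar = 1` on `U` (`exists_level_ker`), `U` fixes `μ_{p^(n+1)}` (`exists_level_fixesRoots`), and
every class of `Ψ` has a representative which is right-invariant under `U` (choose a basis of `Ψ`,
representatives, intersect the levels with `levelsAll.directed`).  Then EVERY cocycle `c` with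
class in `Ψ` is right-`U`-invariant (it differs from such a representative by a coboundary, and
`U` acts trivially on `N`).  Let `c₀` represent `x`; `exists_sigma` gives `g`, trivial on
`μ_{p^(n+1)}`, regular, `c₀ g ∉ (g - 1) N`.  `exists_prime_frob_conj U _ g (S ∪ S')` gives `q, k, j`.
* `h = g ^ k` is regular (`ρbar g = (ρbar h) ^ j`, so distinct eigenvalues `α ≠ β` of `ρbar g`
  give distinct eigenvalues `α ^ k ≠ β ^ k` of `ρbar h`) and `c₀ h ∉ (h - 1) N`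
  (`c (h ^ j) = (1 + h + … + h ^ (j-1)) c h` and `(h - 1) N ⊆ (g - 1) N`, `c₀ (h ^ j) = c₀ g`).
* every Frobenius `φ` over `q` is `σ h σ⁻¹ u`, `u ∈ U`: `ρbar φ` is conjugate to `ρbar h`
  (regular), `φ` fixes `μ_{p^(n+1)}` so `p^(n+1) ∣ q - 1` (`pow_dvd_sub_one_of_frobenius`, `q ≠ p`
  as `p ∈ S`); so `q` is a Taylor-Wiles prime.
* `Ψ' = Ψ ⊓ ker (class of c ↦ c h mod (h - 1) N)` (a linear map `H1sm → N ⧸ range (h - 1)`);
  `x ∉ Ψ'`; if `c` has class in `Ψ` and vanishes at some Frobenius `φ = σ h σ⁻¹ u` over `q` then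
  `c φ = c (σ h σ⁻¹) = σ • c h - (σ h σ⁻¹ - 1) • c σ`, so `c h ∈ (h - 1) N`.
-/
import Fermat.Agent.S56.TW.Sigma
import Fermat.Agent.S56.TW.FrobConj
import Fermat.Agent.S56.TW.Cyclo
import Fermat.Agent.S56.TW.Step.Lemmas

set_option autoImplicit false

namespace Fermat.Agent.S56.TW

open Fermat.Agent.F4 Polynomial

variable {k : Type} [Field k]

theorem exists_twPrime_step {p : ℕ} {ρbar : ResidualGaloisRep k} (H : Hyp p ρbar)
    (S : Finset ℕ) (hpS : p ∈ S) (n : ℕ)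
    (Ψ : Submodule k (H1sm levelsAll (ad0Dual ρbar))) (hΨ : FiniteDimensional k Ψ)
    (x : H1sm levelsAll (ad0Dual ρbar)) (hx : x ∈ Ψ) (hx0 : x ≠ 0) (S' : Finset ℕ) :
    ∃ q : ℕ, IsTWPrime p n ρbar S q ∧ q ∉ S' ∧
      ∃ Ψ' : Submodule k (H1sm levelsAll (ad0Dual ρbar)), Ψ' ≤ Ψ ∧ x ∉ Ψ' ∧
        ∀ c : ↥(Z1 levelsAll (ad0Dual ρbar)), H1smπ levelsAll (ad0Dual ρbar) c ∈ Ψ →
          VanishesAt (ad0Dual ρbar) c.1 q → H1smπ levelsAll (ad0Dual ρbar) c ∈ Ψ' := by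
  classical
  -- the level
  obtain ⟨U₁, hU₁, hker⟩ := exists_level_ker ρbar
  obtain ⟨U₂, hU₂, hfix⟩ := exists_level_fixesRoots (p ^ (n + 1)) (pow_ne_zero _ H.prime.ne_zero)
  obtain ⟨U₀, hU₀, hU₀le⟩ := levelsAll.directed U₁ hU₁ U₂ hU₂
  have hker₀ : ∀ s ∈ U₀, ρbar.ρ s = 1 := fun s hs => hker s (hU₀le hs).1
  have hfix₀ : ∀ s ∈ U₀, FixesRoots (p ^ (n + 1)) s := fun s hs => hfix s (hU₀le hs).2
  obtain ⟨W, hW, hWle, hinv⟩ := st_exists_level_invariant (ad0Dual ρbar) Ψ hΨ U₀ hU₀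
    (fun s hs y => st_ad0Dual_ρ_of_ker ρbar s (hker₀ s hs) y)
  have hkerW : ∀ s ∈ W, ρbar.ρ s = 1 := fun s hs => hker₀ s (hWle hs)
  have hfixW : ∀ s ∈ W, FixesRoots (p ^ (n + 1)) s := fun s hs => hfix₀ s (hWle hs)
  -- a representative of `x`
  obtain ⟨c₀, hc₀⟩ := Submodule.mkQ_surjective _ x
  have hc₀Ψ : H1smπ levelsAll (ad0Dual ρbar) c₀ ∈ Ψ := by
    show Submodule.mkQ _ c₀ ∈ Ψ
    rw [hc₀]; exact hx
  have hcoc : ∀ c : ↥(Z1 levelsAll (ad0Dual ρbar)), IsCoc (ad0Dual ρbar) c.1 := fun c =>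
    (groupCohomology.mem_cocycles₁_iff c.1).1 c.2.1
  have hnc : ¬ ∃ y : ad0Dual ρbar, ∀ g : GQ, c₀.1 g = (ad0Dual ρbar).ρ g y - y := by
    rintro ⟨y, hy⟩
    apply hx0
    rw [← hc₀]
    exact st_H1smπ_eq_zero (ad0Dual ρbar) c₀ y hy
  obtain ⟨g, hgfix, hgreg, hgnot⟩ := exists_sigma H n c₀.1 (hcoc c₀) hnc
  -- the prime
  obtain ⟨q, k', j, hq, hqS, hgj, hφ⟩ := exists_prime_frob_conj W hW g (S ∪ S')
  have hqS₁ : q ∉ S := fun h => hqS (Finset.mem_union_left _ h)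
  have hqS₂ : q ∉ S' := fun h => hqS (Finset.mem_union_right _ h)
  have hqp : q ≠ p := fun h => hqS₁ (h ▸ hpS)
  -- `h = g ^ k'`
  have hρgj : ρbar.ρ g = ρbar.ρ ((g ^ k') ^ j) := by
    have h1 := hkerW _ hgj
    rw [map_mul] at h1
    have h2 : ρbar.ρ g * (ρbar.ρ g⁻¹ * ρbar.ρ ((g ^ k') ^ j)) = ρbar.ρ g * 1 := by rw [h1]
    rw [← mul_assoc, ← map_mul, mul_inv_cancel, map_one, one_mul, mul_one] at h2
    exact h2.symm
  have hhreg : IsRegular ρbar (g ^ k') := st_isRegular_pow ρbar g k' j hρgj hgreg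
  have hhfix : FixesRoots (p ^ (n + 1)) (g ^ k') := st_fixesRoots_pow _ g hgfix k'
  have hhnot : ¬ InRange (ad0Dual ρbar) c₀.1 (g ^ k') := by
    rintro ⟨y, hy⟩
    apply hgnot
    have h1 := st_coc_pow (ad0Dual ρbar) c₀.1 (hcoc c₀) (g ^ k') y hy j
    have h2 : (g ^ k') ^ j = g * (g⁻¹ * (g ^ k') ^ j) := by rw [mul_inv_cancel_left]
    refine ⟨y, ?_⟩
    rw [h2, hinv c₀ hc₀Ψ g _ hgj, st_ad0Dual_ρ_mul_of_ker ρbar g _ (hkerW _ hgj)] at h1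
    exact h1
  -- every Frobenius over `q` is `σ h σ⁻¹ u`
  have hφ' : ∀ P : ValuationSubring (AlgebraicClosure ℚ), P.LiesOverPrime q →
      ∀ φ : GQ, P.IsFrobeniusAt φ q → ∃ σ u : GQ, u ∈ W ∧ φ = σ * g ^ k' * σ⁻¹ * u := by
    intro P hP φ hφP
    obtain ⟨σ, hσ⟩ := hφ P hP φ hφP
    exact ⟨σ, _, hσ, by rw [mul_inv_cancel_left]⟩
  refine ⟨q, ⟨⟨hq, hqS₁, ?_⟩, ?_⟩, hqS₂, ?_⟩
  · -- `q ≡ 1 mod p^(n+1)`
    obtain ⟨P, φ, hP, hφP⟩ := st_exists_place_frobenius q hq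
    obtain ⟨σ, u, hu, rfl⟩ := hφ' P hP φ hφP
    exact pow_dvd_sub_one_of_frobenius p n q H.prime hq hqp P hP _ hφP
      (fixesRoots_mul _ _ _ (fixesRoots_conj _ σ _ hhfix) (hfixW u hu))
  · -- regular Frobenius
    intro P hP φ hφP
    obtain ⟨σ, u, hu, rfl⟩ := hφ' P hP φ hφP
    refine st_isRegular_conj ρbar (g ^ k') σ _ ?_ hhreg
    rw [map_mul (ρbar.ρ) (σ * g ^ k' * σ⁻¹) u, hkerW u hu, mul_one]
  · -- the smaller space
    refine ⟨Ψ ⊓ (stZh (ad0Dual ρbar) (g ^ k')).map (H1smπ levelsAll (ad0Dual ρbar)),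
      inf_le_left, ?_, ?_⟩
    · rintro ⟨-, hx2⟩
      apply hhnot
      rw [← hc₀] at hx2
      exact st_mem_of_map_mem (H1smπ levelsAll (ad0Dual ρbar)) _
        (st_ker_le_stZh (ad0Dual ρbar) (g ^ k')) c₀ hx2
    · intro c hc hvan
      refine ⟨hc, c, ?_, rfl⟩
      obtain ⟨P, hP, φ, hφP, y, hy⟩ := hvan
      obtain ⟨σ, u, hu, rfl⟩ := hφ' P hP φ hφP
      rw [hinv c hc _ u hu, st_ad0Dual_ρ_mul_of_ker ρbar _ u (hkerW u hu)] at hy
      exact st_inRange_of_conj (ad0Dual ρbar) c.1 (hcoc c) (g ^ k') σ ⟨y, hy⟩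

end Fermat.Agent.S56.TW
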