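/-
S56 / W5: Taylor-Wiles primes, induction over `dim Ψ` (from `TW/Step.lean`).  Owner: helper59.

Step: `Ψ ≠ 0`, `x ∈ Ψ` nonzero; `exists_twPrime_step` gives a Taylor-Wiles prime `q ∉ S'` and
`Ψ' ≤ Ψ` with `x ∉ Ψ'` containing all classes of `Ψ` which vanish at `q`.  Take a linear form `f`
with `f x ≠ 0`, `f = 0` on `Ψ'`; `Ψ'' = Ψ ⊓ ker f` has dimension `dim Ψ - 1`; induction for `Ψ''`
and `S' ∪ {q}`.
-/
import Fermat.Agent.S56.TW.Step

set_option autoImplicit false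

namespace Fermat.Agent.S56.TW

open Fermat.Agent.F4 Polynomial Module

variable {k : Type} [Field k]

/-- A hyperplane of `Ψ` containing `Ψ'` and avoiding `x`. -/
theorem exists_hyperplane {V : Type} [AddCommGroup V] [Module k V] (Ψ Ψ' : Submodule k V)
    [FiniteDimensional k Ψ] (hle : Ψ' ≤ Ψ) (x : V) (hx : x ∈ Ψ) (hx' : x ∉ Ψ') :
    ∃ Ψ'' : Submodule k V, Ψ' ≤ Ψ'' ∧ Ψ'' ≤ Ψ ∧ finrank k Ψ'' + 1 = finrank k Ψ := by
  obtain ⟨f, hfx, hf⟩ := Submodule.exists_le_ker_of_notMem hx'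
  refine ⟨Ψ ⊓ LinearMap.ker f, le_inf hle hf, inf_le_left, ?_⟩
  -- rank-nullity for the restriction of `f` to `Ψ`
  set g : Ψ →ₗ[k] k := f.comp Ψ.subtype with hg
  have hrn := LinearMap.finrank_range_add_finrank_ker g
  have hsurj : LinearMap.range g = ⊤ := by
    rw [LinearMap.range_eq_top]
    intro c
    refine ⟨(c * (f x)⁻¹) • ⟨x, hx⟩, ?_⟩
    simp [hg, hfx]
  have hker : finrank k (LinearMap.ker g) = finrank k ↥(Ψ ⊓ LinearMap.ker f) := by
    have e : LinearMap.ker g = (Ψ ⊓ LinearMap.ker f).comap Ψ.subtype := by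
      ext y
      simp [hg, LinearMap.mem_ker]
    rw [e]
    exact (Submodule.comapSubtypeEquivOfLe (inf_le_left : Ψ ⊓ LinearMap.ker f ≤ Ψ)).finrank_eq
  rw [hsurj, finrank_top, finrank_self, hker] at hrn
  omega

theorem exists_twPrimes_aux {p : ℕ} {ρbar : ResidualGaloisRep k} (H : Hyp p ρbar)
    (S : Finset ℕ) (hpS : p ∈ S) (n : ℕ) :
    ∀ (d : ℕ) (Ψ : Submodule k (H1sm levelsAll (ad0Dual ρbar))), FiniteDimensional k Ψ →
      finrank k Ψ = d → ∀ S' : Finset ℕ,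
        ∃ qv : Fin d → ℕ, Function.Injective qv ∧ (∀ i, IsTWPrime p n ρbar S (qv i)) ∧
          (∀ i, qv i ∉ S') ∧ Kills ρbar Ψ (Finset.univ.image qv) := by
  intro d
  induction d with
  | zero =>
    intro Ψ hΨ hd S'
    refine ⟨Fin.elim0, fun i => i.elim0, fun i => i.elim0, fun i => i.elim0, ?_⟩
    intro c hc _
    have hbot : Ψ = ⊥ := Submodule.finrank_eq_zero.mp hd
    rw [hbot] at hc
    exact (Submodule.mem_bot k).mp hc
  | succ d ih =>
    intro Ψ hΨ hd S'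
    have hne : Ψ ≠ ⊥ := by
      intro h
      rw [h, finrank_bot] at hd
      omega
    obtain ⟨x, hx, hx0⟩ := Submodule.exists_mem_ne_zero_of_ne_bot hne
    obtain ⟨q, hq, hqS', Ψ', hle, hxΨ', hvan⟩ := exists_twPrime_step H S hpS n Ψ hΨ x hx hx0 S'
    obtain ⟨Ψ'', h1, h2, h3⟩ := exists_hyperplane Ψ Ψ' hle x hx hxΨ'
    have hΨ'' : FiniteDimensional k Ψ'' := Submodule.finiteDimensional_of_le h2
    obtain ⟨qv, hinj, hTW, hS', hkill⟩ := ih Ψ'' hΨ'' (by omega) (insert q S')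
    refine ⟨Fin.cons q qv, ?_, ?_, ?_, ?_⟩
    · rw [Fin.cons_injective_iff]
      refine ⟨?_, hinj⟩
      rintro ⟨i, hi⟩
      exact hS' i (by rw [hi]; exact Finset.mem_insert_self _ _)
    · intro i
      refine Fin.cases ?_ (fun j => ?_) i
      · simpa using hq
      · simpa using hTW j
    · intro i
      refine Fin.cases ?_ (fun j => ?_) i
      · simpa using hqS'
      · simpa using fun h => hS' j (Finset.mem_insert_of_mem h)
    · intro c hc hv
      have hq' : q ∈ Finset.univ.image (Fin.cons q qv : Fin (d + 1) → ℕ) :=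
        Finset.mem_image.mpr ⟨0, Finset.mem_univ _, by simp⟩
      have hcΨ' := hvan c hc (hv q hq')
      refine hkill c (h1 hcΨ') (fun q' hq'' => hv q' ?_)
      obtain ⟨j, -, rfl⟩ := Finset.mem_image.mp hq''
      exact Finset.mem_image.mpr ⟨j.succ, Finset.mem_univ _, by simp⟩

/-- **Wall W5** from the hypotheses `Hyp`. -/
theorem twPrimes_of_hyp {p : ℕ} {ρbar : ResidualGaloisRep k} (H : Hyp p ρbar)
    (S : Finset ℕ) (hpS : p ∈ S) : TWPrimesStatement p ρbar S := by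
  intro Ψ hΨ n
  obtain ⟨qv, hinj, hTW, -, hkill⟩ := exists_twPrimes_aux H S hpS n _ Ψ hΨ rfl ∅
  exact ⟨qv, hinj, hTW, hkill⟩

end Fermat.Agent.S56.TW
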