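/-
S56 / W5 leaf L3 (`N = (ad⁰ρbar)^* ⊗ det` is an irreducible `k[G_ℚ]`-module).  Owner: helper88.
Statements FIXED (architect helper59).

Proof.  `char k ≠ 2`.  A stable `W ⊂ ad⁰`, `W ≠ 0, ad⁰`, has dimension `1` or `2`; in a stable
plane with basis `X, Y` the commutator `[X, Y]` is nonzero (`Ad0Irr/Plane.lean`) and spans a stable
line.  So there is a stable line `k A ⊂ ad⁰` (`A ≠ 0`, `tr A = 0`): `ρ(g) A ρ(g)⁻¹ = χ(g) A`;
this is impossible (`Ad0Irr/Line.lean`: Cayley-Hamilton, eigenline of `A` over the algebraic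
closure, `habs`, `hTW`).  A stable `W ⊂ N` has a stable annihilator in `ad⁰`.
-/
import Fermat.Agent.S56.TW.Hyp
import Fermat.Agent.S56.TW.Ad0Irr.Line
import Fermat.Agent.S56.TW.Ad0Irr.Plane

set_option autoImplicit false
set_option linter.style.haveILetI false

namespace Fermat.Agent.S56.TW

open Fermat.Agent.F4 Polynomial

variable {k : Type} [Field k]

/-- Conjugation is multiplicative. -/
theorem ad0irr_conj_mul (ρbar : ResidualGaloisRep k) (g : GQ) (X Y : Module.End k ρbar.V) :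
    ρbar.ρ g * (X * Y) * ρbar.ρ g⁻¹ =
      (ρbar.ρ g * X * ρbar.ρ g⁻¹) * (ρbar.ρ g * Y * ρbar.ρ g⁻¹) := by
  calc ρbar.ρ g * (X * Y) * ρbar.ρ g⁻¹
      = ρbar.ρ g * X * 1 * Y * ρbar.ρ g⁻¹ := by simp only [mul_assoc, one_mul]
    _ = ρbar.ρ g * X * (ρbar.ρ g⁻¹ * ρbar.ρ g) * Y * ρbar.ρ g⁻¹ := by rw [ad0irr_ρ_inv_mul]
    _ = _ := by simp only [mul_assoc]

/-- A conjugation-stable subspace of the trace-zero endomorphisms is `0` or everything. -/
theorem ad0Sub_irreducible {p : ℕ} {ρbar : ResidualGaloisRep k} (H : Hyp p ρbar)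
    (W : Submodule k (Module.End k ρbar.V)) (hW0 : W ≤ ad0Sub ρbar)
    (hW : ∀ g : GQ, ∀ f ∈ W, ρbar.ρ g * f * ρbar.ρ g⁻¹ ∈ W) : W = ⊥ ∨ W = ad0Sub ρbar := by
  by_contra hcon
  push Not at hcon
  obtain ⟨hbot, htop⟩ := hcon
  have h2 : (2 : k) ≠ 0 := ad0irr_two_ne_zero H
  haveI : Module.Finite k ρbar.V := Module.finite_of_finrank_eq_succ ρbar.finrank_eq
  have h3 : Module.finrank k (ad0Sub ρbar) = 3 := ad0irr_finrank_ker_trace ρbar.finrank_eq h2
  have hlt : Module.finrank k W < 3 := by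
    rw [← h3]
    exact Submodule.finrank_lt_finrank_of_lt (lt_of_le_of_ne hW0 htop)
  have hpos : 0 < Module.finrank k W := by
    rw [Module.finrank_pos_iff]
    exact Submodule.nontrivial_iff_ne_bot.2 hbot
  have htrW : ∀ f ∈ W, LinearMap.trace k ρbar.V f = 0 := fun f hf => hW0 hf
  have hcases : Module.finrank k W = 1 ∨ Module.finrank k W = 2 := by omega
  rcases hcases with h1 | h1
  · -- a line
    obtain ⟨⟨X, hX⟩, hX0, hspan⟩ := finrank_eq_one_iff'.1 h1
    have hX0' : X ≠ 0 := fun h => hX0 (Subtype.ext h)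
    refine ad0irr_no_stable_line H X hX0' (htrW X hX) fun g => ?_
    obtain ⟨c, hc⟩ := hspan ⟨ρbar.ρ g * X * ρbar.ρ g⁻¹, hW g X hX⟩
    exact ⟨c, (congrArg Subtype.val hc).symm⟩
  · -- a plane
    let b := Module.finBasisOfFinrankEq k W h1
    have hli := b.linearIndependent
    have hrepr : ∀ f ∈ W, ∃ s t : k, f = s • (b 0 : Module.End k ρbar.V) + t • (b 1 : _) := by
      intro f hf
      refine ⟨b.repr ⟨f, hf⟩ 0, b.repr ⟨f, hf⟩ 1, ?_⟩
      have := b.sum_repr ⟨f, hf⟩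
      rw [Fin.sum_univ_two] at this
      have h4 := congrArg Subtype.val this
      simpa using h4.symm
    set X : Module.End k ρbar.V := (b 0 : Module.End k ρbar.V) with hXdef
    set Y : Module.End k ρbar.V := (b 1 : Module.End k ρbar.V) with hYdef
    have hXW : X ∈ W := (b 0).2
    have hYW : Y ∈ W := (b 1).2
    have hcomm : X * Y - Y * X ≠ 0 := by
      intro h
      obtain ⟨s, t, hst, hdep⟩ := ad0irr_end_dependent ρbar.finrank_eq h2 X Y (htrW X hXW)
        (htrW Y hYW) (sub_eq_zero.1 h)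
      have hdep' : s • b 0 + t • b 1 = 0 := by
        apply Subtype.ext
        simpa using hdep
      have := (LinearIndependent.pair_iff.1 (by
        have h5 := hli
        have h6 : (fun i => b i) = ![b 0, b 1] := by
          ext i
          fin_cases i <;> rfl
        rw [show (⇑b : Fin 2 → W) = ![b 0, b 1] from h6] at h5
        exact h5)) s t hdep'
      rcases hst with h | h
      · exact h this.1
      · exact h this.2
    have htrA : LinearMap.trace k ρbar.V (X * Y - Y * X) = 0 := by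
      rw [map_sub, LinearMap.trace_mul_comm, sub_self]
    refine ad0irr_no_stable_line H (X * Y - Y * X) hcomm htrA fun g => ?_
    obtain ⟨s, t, hs⟩ := hrepr _ (hW g X hXW)
    obtain ⟨u, v, hu⟩ := hrepr _ (hW g Y hYW)
    refine ⟨s * v - t * u, ?_⟩
    rw [mul_sub, sub_mul, ad0irr_conj_mul, ad0irr_conj_mul, hs, hu]
    simp only [add_mul, mul_add, smul_mul_assoc, mul_smul_comm, smul_add, smul_smul, sub_smul,
      smul_sub]
    module

/-- An element of `ad⁰` as an endomorphism. -/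
def ad0irrVal (ρbar : ResidualGaloisRep k) (a : ad0 ρbar) : Module.End k ρbar.V :=
  Subtype.val (p := fun f => f ∈ ad0Sub ρbar) a

/-- An element of `N` as a linear form on the trace-zero endomorphisms. -/
def ad0irrForm (ρbar : ResidualGaloisRep k) (f : ad0Dual ρbar) :
    Module.Dual k ↥(ad0Sub ρbar) := f

/-- The action of `ad⁰` in terms of endomorphisms. -/
theorem ad0irr_ad0_ρ_coe (ρbar : ResidualGaloisRep k) (g : GQ) (a : ↥(ad0Sub ρbar)) :
    ad0irrVal ρbar ((ad0 ρbar).ρ g a) =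
      ρbar.ρ g * (a : Module.End k ρbar.V) * ρbar.ρ g⁻¹ := by
  show ρbar.ρ g * ((a : Module.End k ρbar.V) * ρbar.ρ g⁻¹) = _
  rw [mul_assoc]

/-- The action of `N = (ad⁰)^* ⊗ det`. -/
theorem ad0irr_ad0Dual_ρ_apply (ρbar : ResidualGaloisRep k) (g : GQ)
    (f : ad0Dual ρbar) (a : ↥(ad0Sub ρbar)) :
    ad0irrForm ρbar ((ad0Dual ρbar).ρ g f) a =
      LinearMap.det (ρbar.ρ g) * ad0irrForm ρbar f ((ad0 ρbar).ρ g⁻¹ a) := rfl

theorem ad0irr_det_ne_zero (ρbar : ResidualGaloisRep k) (g : GQ) :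
    LinearMap.det (ρbar.ρ g) ≠ 0 := by
  intro h
  have h1 : LinearMap.det (ρbar.ρ g) * LinearMap.det (ρbar.ρ g⁻¹) = 1 := by
    rw [← map_mul, ad0irr_ρ_mul_inv, map_one]
  rw [h, zero_mul] at h1
  exact zero_ne_one h1

/-- A scalar endomorphism has no two distinct "eigenvalues" in its characteristic polynomial. -/
theorem ad0irr_not_scalar_of_regular {ρbar : ResidualGaloisRep k} (σ : GQ)
    (hreg : IsRegular ρbar σ) (c : k) : ρbar.ρ σ ≠ c • (1 : Module.End k ρbar.V) := by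
  haveI : Module.Finite k ρbar.V := Module.finite_of_finrank_eq_succ ρbar.finrank_eq
  obtain ⟨α, β, hαβ, hchar⟩ := hreg
  intro h
  have key : ∀ γ : k, (LinearMap.charpoly (ρbar.ρ σ)).IsRoot γ → γ = c := by
    intro γ hγ
    have h1 := (Module.End.hasEigenvalue_iff_isRoot_charpoly (ρbar.ρ σ) γ).2 hγ
    obtain ⟨v, hv⟩ := h1.exists_hasEigenvector
    have h2 := hv.apply_eq_smul
    rw [h, LinearMap.smul_apply, Module.End.one_apply] at h2
    have h3 : (c - γ) • v = 0 := by rw [sub_smul, h2, sub_self]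
    rcases smul_eq_zero.1 h3 with h4 | h4
    · exact (sub_eq_zero.1 h4).symm
    · exact absurd h4 hv.2
  have hα : α = c := key α (by rw [hchar, IsRoot, eval_mul, eval_sub, eval_X, eval_C, sub_self,
    zero_mul])
  have hβ : β = c := key β (by rw [hchar, IsRoot, eval_mul, eval_sub, eval_X, eval_C,
    eval_sub, eval_X, eval_C, sub_self, mul_zero])
  exact hαβ (hα.trans hβ.symm)

/-- `det ρbar(σ) = 1` if `σ` fixes the `p`-th roots of unity. -/
theorem ad0irr_det_eq_one {p : ℕ} {ρbar : ResidualGaloisRep k} (H : Hyp p ρbar)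
    (σ : GQ) (hσ : FixesRoots p σ) : LinearMap.det (ρbar.ρ σ) = 1 := by
  have h1 := H.hdet.2 1 σ 1 (fun μ hμ => by
    rw [pow_one] at hμ ⊢
    exact hσ μ hμ)
  have h0 : ((p ^ 1 : ℕ) : k) = 0 := by rw [pow_one]; exact H.char
  rw [h0, Ideal.span_singleton_eq_bot.2 rfl, Ideal.mem_bot, Nat.cast_one, sub_eq_zero] at h1
  exact h1

/-- An element which fixes `μ_p` and has two distinct eigenvalues has a nonzero fixed vector in
`N`, so `σ - 1` is not surjective on `N`. -/
theorem exists_not_inRange_of_regular {p : ℕ} {ρbar : ResidualGaloisRep k} (H : Hyp p ρbar)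
    (σ : GQ) (hσ : FixesRoots p σ) (hreg : IsRegular ρbar σ) :
    ∃ y : ad0Dual ρbar, ∀ x : ad0Dual ρbar, y ≠ (ad0Dual ρbar).ρ σ x - x := by
  have h2 : (2 : k) ≠ 0 := ad0irr_two_ne_zero H
  have hdet := ad0irr_det_eq_one H σ hσ
  set t : k := LinearMap.trace k ρbar.V (ρbar.ρ σ) with ht
  set a0 : Module.End k ρbar.V := ρbar.ρ σ - (t / 2) • (1 : Module.End k ρbar.V) with ha0
  have ha0tr : LinearMap.trace k ρbar.V a0 = 0 := by
    rw [ha0, map_sub, ad0irr_trace_smul_one ρbar.finrank_eq, ← ht]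
    field_simp
    ring
  have ha0ne : a0 ≠ 0 := fun h =>
    ad0irr_not_scalar_of_regular σ hreg (t / 2) (sub_eq_zero.1 h)
  have ha0fix : ρbar.ρ σ⁻¹ * a0 * ρbar.ρ σ = a0 := by
    rw [ha0, mul_sub, sub_mul, mul_smul_comm, mul_one, smul_mul_assoc, ad0irr_ρ_inv_mul,
      one_mul]
  let a : ↥(ad0Sub ρbar) := ⟨a0, ha0tr⟩
  have hane : a ≠ 0 := fun h => ha0ne (congrArg Subtype.val h)
  have hfix : (ad0 ρbar).ρ σ⁻¹ a = a := by
    apply Subtype.ext
    have h1 := ad0irr_ad0_ρ_coe ρbar σ⁻¹ a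
    rw [inv_inv] at h1
    exact h1.trans ha0fix
  obtain ⟨φ, hφ⟩ : ∃ φ : Module.Dual k ↥(ad0Sub ρbar), φ a ≠ 0 := by
    by_contra hcon
    push Not at hcon
    exact hane ((Module.forall_dual_apply_eq_zero_iff k a).1 hcon)
  refine ⟨(φ : Module.Dual k ↥(ad0Sub ρbar)), fun x hx => hφ ?_⟩
  have h3 : ad0irrForm ρbar ((ad0Dual ρbar).ρ σ x - x) a = 0 := by
    have h4 : ad0irrForm ρbar ((ad0Dual ρbar).ρ σ x - x) a =
        ad0irrForm ρbar ((ad0Dual ρbar).ρ σ x) a - ad0irrForm ρbar x a := rfl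
    rw [h4, ad0irr_ad0Dual_ρ_apply, hdet, one_mul, hfix, sub_self]
  rw [← hx] at h3
  exact h3

/-- `N = ad0Dual ρbar` is irreducible. -/
theorem ad0Dual_irreducible {p : ℕ} {ρbar : ResidualGaloisRep k} (H : Hyp p ρbar)
    (W : Submodule k (ad0Dual ρbar))
    (hW : ∀ g : GQ, ∀ x ∈ W, (ad0Dual ρbar).ρ g x ∈ W) : W = ⊥ ∨ W = ⊤ := by
  haveI : Module.Finite k ρbar.V := Module.finite_of_finrank_eq_succ ρbar.finrank_eq
  -- `W` as a subspace of the dual of the trace-zero endomorphisms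
  let Φ : Submodule k (Module.Dual k ↥(ad0Sub ρbar)) := W
  have hΦ : ∀ g : GQ, ∀ φ ∈ Φ, ad0irrForm ρbar ((ad0Dual ρbar).ρ g φ) ∈ Φ :=
    fun g φ hφ => hW g φ hφ
  let W' : Submodule k (Module.End k ρbar.V) := Φ.dualCoannihilator.map (ad0Sub ρbar).subtype
  have hW'le : W' ≤ ad0Sub ρbar := by
    rintro _ ⟨a, -, rfl⟩
    exact a.2
  have hW'st : ∀ g : GQ, ∀ f ∈ W', ρbar.ρ g * f * ρbar.ρ g⁻¹ ∈ W' := by
    rintro g _ ⟨a, ha, rfl⟩
    have ha' := (Submodule.mem_dualCoannihilator a).1 ha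
    refine ⟨(ad0 ρbar).ρ g a, (Submodule.mem_dualCoannihilator (Φ := Φ) _).2 (fun φ hφ => ?_),
      ad0irr_ad0_ρ_coe ρbar g a⟩
    have h0 := ha' _ (hΦ g⁻¹ φ hφ)
    have h1 : LinearMap.det (ρbar.ρ g⁻¹) * φ ((ad0 ρbar).ρ (g⁻¹)⁻¹ a) = 0 := h0
    rw [inv_inv] at h1
    rcases mul_eq_zero.1 h1 with h | h
    · exact absurd h (ad0irr_det_ne_zero ρbar g⁻¹)
    · exact h
  have hfin : FiniteDimensional k ↥Φ := inferInstance
  have hΦeq : Φ.dualCoannihilator.dualAnnihilator = Φ :=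
    Subspace.dualCoannihilator_dualAnnihilator_eq
  rcases ad0Sub_irreducible H W' hW'le hW'st with h | h
  · -- coannihilator is zero: `W = ⊤`
    right
    have h1 : Φ.dualCoannihilator = ⊥ := by
      rw [eq_bot_iff]
      intro a ha
      have h2 : (ad0Sub ρbar).subtype a ∈ W' := ⟨a, ha, rfl⟩
      rw [h, Submodule.mem_bot] at h2
      rw [Submodule.mem_bot]
      exact Subtype.ext h2
    have h3 : Φ = ⊤ := by rw [← hΦeq, h1, Submodule.dualAnnihilator_bot]
    exact h3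
  · -- coannihilator is everything: `W = ⊥`
    left
    have h1 : Φ.dualCoannihilator = ⊤ := by
      rw [eq_top_iff]
      intro a _
      have h2 : (a : Module.End k ρbar.V) ∈ W' := by rw [h]; exact a.2
      obtain ⟨b, hb, hba⟩ := h2
      have : b = a := Subtype.ext hba
      rw [← this]
      exact hb
    have h3 : Φ = ⊥ := by rw [← hΦeq, h1, Submodule.dualAnnihilator_top]
    exact h3

/-- `N` has no nonzero invariants. -/
theorem ad0Dual_invariants {p : ℕ} {ρbar : ResidualGaloisRep k} (H : Hyp p ρbar)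
    (x : ad0Dual ρbar) (hx : ∀ g : GQ, (ad0Dual ρbar).ρ g x = x) : x = 0 := by
  haveI : Module.Finite k ρbar.V := Module.finite_of_finrank_eq_succ ρbar.finrank_eq
  have h2 : (2 : k) ≠ 0 := ad0irr_two_ne_zero H
  by_contra hx0
  have hst : ∀ g : GQ, ∀ y ∈ Submodule.span k {x}, (ad0Dual ρbar).ρ g y ∈ Submodule.span k {x} := by
    intro g y hy
    obtain ⟨c, rfl⟩ := Submodule.mem_span_singleton.1 hy
    rw [map_smul, hx g]
    exact Submodule.smul_mem _ c (Submodule.mem_span_singleton_self x)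
  rcases ad0Dual_irreducible H (Submodule.span k {x}) hst with h | h
  · exact hx0 (Submodule.span_singleton_eq_bot.1 h)
  · have h3 : Module.finrank k (ad0Sub ρbar) = 3 := ad0irr_finrank_ker_trace ρbar.finrank_eq h2
    have h4 : Module.finrank k (Module.Dual k ↥(ad0Sub ρbar)) = 3 := by
      rw [Subspace.dual_finrank_eq, h3]
    have h5 : Module.finrank k (Submodule.span k {(x : Module.Dual k ↥(ad0Sub ρbar))}) = 1 :=
      finrank_span_singleton hx0
    have h6 : Submodule.span k {(x : Module.Dual k ↥(ad0Sub ρbar))} = ⊤ := h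
    rw [h6, finrank_top] at h5
    have h7 : (3 : ℕ) = 1 := h4.symm.trans h5
    omega

end Fermat.Agent.S56.TW
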